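import Mathlib.NumberTheory.NumberField.CanonicalEmbedding.FundamentalCone

/-!
# A Lipschitz replacement of the fundamental cone

`cutoff` is a Lipschitz weight on the mixed space, homogeneous of degree zero, whose translates
under the units sum to the torsion order. `coneTerm s = cutoff * norm ^ (-s)` varies by
`O(‖x‖ ^ (-(d + 1)))` under bounded translations.
-/

set_option autoImplicit false

noncomputable section

namespace Fermat.Agent.S14

open Module NumberField NumberField.InfinitePlace NumberField.mixedEmbedding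
  NumberField.Units NumberField.Units.dirichletUnitTheorem

open scoped Classical

/-- The piecewise linear bump. -/
def tent (t : ℝ) : ℝ := max 0 (1 - |t|)

lemma tent_nonneg (t : ℝ) : 0 ≤ tent t := le_max_left _ _

lemma tent_le_one (t : ℝ) : tent t ≤ 1 :=
  max_le zero_le_one (by linarith [abs_nonneg t])

lemma tent_ne_zero {t : ℝ} (h : tent t ≠ 0) : |t| < 1 := by
  by_contra h'
  exact h (max_eq_left (by linarith))

lemma abs_tent_sub_le (a b : ℝ) : |tent a - tent b| ≤ |a - b| := by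
  refine (abs_max_sub_max_le_max _ _ _ _).trans ?_
  simp only [sub_self, abs_zero, sub_sub_sub_cancel_left]
  refine max_le (abs_nonneg _) ?_
  rw [abs_sub_comm a b]
  exact abs_abs_sub_abs_le_abs_sub b a

lemma hasSum_tent (t : ℝ) : HasSum (fun n : ℤ => tent (t + n)) 1 := by
  have h0 := Int.fract_nonneg t
  have h1 := Int.fract_lt_one t
  have ht : (⌊t⌋ : ℝ) + Int.fract t = t := Int.floor_add_fract t
  have : HasSum (fun n : ℤ => tent (t + n))
      (∑ n ∈ ({-⌊t⌋, -⌊t⌋ - 1} : Finset ℤ), tent (t + n)) := by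
    refine hasSum_sum_of_ne_finset_zero fun n hn => ?_
    simp only [Finset.mem_insert, Finset.mem_singleton, not_or] at hn
    refine max_eq_left ?_
    rcases lt_or_gt_of_ne hn.1 with h | h
    · have h' : n ≤ -⌊t⌋ - 2 := by omega
      have : (n : ℝ) ≤ -(⌊t⌋ : ℝ) - 2 := by exact_mod_cast h'
      rw [abs_of_neg (by linarith)]
      linarith
    · have h' : -⌊t⌋ + 1 ≤ n := by omega
      have : -(⌊t⌋ : ℝ) + 1 ≤ n := by exact_mod_cast h'
      rw [abs_of_pos (by linarith)]
      linarith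
  convert this using 1
  rw [Finset.sum_pair (by omega)]
  push_cast
  unfold tent
  rw [show t + -(⌊t⌋ : ℝ) = Int.fract t by linarith, show t + (-(⌊t⌋ : ℝ) - 1) = Int.fract t - 1 by linarith,
    abs_of_nonneg h0, abs_of_nonpos (by linarith), max_eq_right (by linarith),
    max_eq_right (by linarith)]
  ring

lemma abs_prod_sub_prod_le {ι : Type*} (s : Finset ι) {a b : ι → ℝ}
    (ha : ∀ i ∈ s, a i ∈ Set.Icc (0 : ℝ) 1) (hb : ∀ i ∈ s, b i ∈ Set.Icc (0 : ℝ) 1) :
    |∏ i ∈ s, a i - ∏ i ∈ s, b i| ≤ ∑ i ∈ s, |a i - b i| := by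
  classical
  induction s using Finset.induction with
  | empty => simp
  | insert j t hj ih =>
    rw [Finset.prod_insert hj, Finset.prod_insert hj, Finset.sum_insert hj]
    have ih' := ih (fun i hi => ha i (Finset.mem_insert_of_mem hi))
      (fun i hi => hb i (Finset.mem_insert_of_mem hi))
    have hA0 : 0 ≤ ∏ i ∈ t, a i :=
      Finset.prod_nonneg fun i hi => (ha i (Finset.mem_insert_of_mem hi)).1
    have hA1 : ∏ i ∈ t, a i ≤ 1 :=
      Finset.prod_le_one (fun i hi => (ha i (Finset.mem_insert_of_mem hi)).1)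
        fun i hi => (ha i (Finset.mem_insert_of_mem hi)).2
    have hbj := hb j (Finset.mem_insert_self j t)
    calc |a j * ∏ i ∈ t, a i - b j * ∏ i ∈ t, b i|
        = |(a j - b j) * ∏ i ∈ t, a i + b j * (∏ i ∈ t, a i - ∏ i ∈ t, b i)| := by
          congr 1; ring
      _ ≤ |a j - b j| * 1 + 1 * |∏ i ∈ t, a i - ∏ i ∈ t, b i| := by
          refine (abs_add_le _ _).trans (add_le_add ?_ ?_) <;> rw [abs_mul]
          · exact mul_le_mul_of_nonneg_left (by rw [abs_of_nonneg hA0]; exact hA1) (abs_nonneg _)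
          · exact mul_le_mul_of_nonneg_right (by rw [abs_of_nonneg hbj.1]; exact hbj.2) (abs_nonneg _)
      _ ≤ _ := by linarith

variable {K : Type*} [Field K] [NumberField K]

/-- The basis of `logSpace K` coming from the fundamental units. -/
def unitLogBasis (K : Type*) [Field K] [NumberField K] :
    Basis (Fin (Units.rank K)) ℝ (logSpace K) :=
  (basisUnitLattice K).ofZLatticeBasis ℝ (unitLattice K)

/-- Coordinates of the logarithm map in the basis of fundamental units. -/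
def logCoord (x : mixedSpace K) (i : Fin (Units.rank K)) : ℝ :=
  (unitLogBasis K).repr (logMap x) i


/-- A Lipschitz weight whose translates by the units sum to the torsion order. -/
def cutoff (x : mixedSpace K) : ℝ :=
  if mixedEmbedding.norm x = 0 then 0 else ∏ i, tent (logCoord x i)

/-- The summand of the weighted lattice sum. -/
def coneTerm (s : ℝ) (x : mixedSpace K) : ℝ :=
  cutoff x * mixedEmbedding.norm x ^ (-s)

lemma cutoff_mem (x : mixedSpace K) : cutoff x ∈ Set.Icc (0 : ℝ) 1 := by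
  unfold cutoff
  split_ifs
  · simp
  · exact ⟨Finset.prod_nonneg fun i _ => tent_nonneg _,
      Finset.prod_le_one (fun i _ => tent_nonneg _) fun i _ => tent_le_one _⟩

lemma norm_ne_zero_of_cutoff {x : mixedSpace K} (h : cutoff x ≠ 0) :
    mixedEmbedding.norm x ≠ 0 := fun h' => h (if_pos h')

lemma coneTerm_nonneg (s : ℝ) (x : mixedSpace K) : 0 ≤ coneTerm s x :=
  mul_nonneg (cutoff_mem x).1 (Real.rpow_nonneg (mixedEmbedding.norm_nonneg x) _)

@[simp] lemma coneTerm_zero (s : ℝ) : coneTerm s (0 : mixedSpace K) = 0 := by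
  simp [coneTerm, cutoff]

lemma coneTerm_le {s : ℝ} (hs : s ∈ Set.Icc (1 : ℝ) 2) (x : mixedSpace K) :
    coneTerm s x ≤ 1 + mixedEmbedding.norm x ^ (-2 : ℝ) := by
  have hN := mixedEmbedding.norm_nonneg x
  have h0 : 0 ≤ mixedEmbedding.norm x ^ (-2 : ℝ) := Real.rpow_nonneg hN _
  refine le_trans (mul_le_mul_of_nonneg_right (cutoff_mem x).2 (Real.rpow_nonneg hN _)) ?_
  rw [one_mul]
  rcases hN.eq_or_lt' with h | h
  · rw [h, Real.zero_rpow (by linarith [hs.1]), Real.zero_rpow (by norm_num)]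
    norm_num
  rcases le_total 1 (mixedEmbedding.norm x) with h1 | h1
  · linarith [Real.rpow_le_one_of_one_le_of_nonpos h1 (show -s ≤ 0 by linarith [hs.1])]
  · linarith [Real.rpow_le_rpow_of_exponent_ge h h1 (show (-2 : ℝ) ≤ -s by linarith [hs.2])]

lemma sum_mult_real : ∑ w : InfinitePlace K, (mult w : ℝ) = finrank ℚ K := by
  rw [← Nat.cast_sum, sum_mult_eq]

lemma log_norm_eq {x : mixedSpace K} (hx : mixedEmbedding.norm x ≠ 0) :
    Real.log (mixedEmbedding.norm x) = ∑ w, (mult w : ℝ) * Real.log (normAtPlace w x) := by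
  rw [mixedEmbedding.norm_apply, Real.log_prod
    (fun w _ => pow_ne_zero _ (mixedEmbedding.norm_ne_zero_iff.mp hx w))]
  simp_rw [Real.log_pow]

lemma exists_cutoff_bound (K : Type*) [Field K] [NumberField K] :
    ∃ R : ℝ, ∀ x : mixedSpace K, cutoff x ≠ 0 → ∀ w, |Real.log (normAtPlace w x) -
      Real.log (mixedEmbedding.norm x) * (finrank ℚ K : ℝ)⁻¹| ≤ R := by
  set B := unitLogBasis K
  set R0 : ℝ := ∑ i, ‖B i‖
  have hR0 : 0 ≤ R0 := Finset.sum_nonneg fun i _ => norm_nonneg _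
  refine ⟨max R0 ((finrank ℚ K : ℝ) * R0), fun x hx => ?_⟩
  have hN := norm_ne_zero_of_cutoff hx
  have hlog : ‖logMap x‖ ≤ R0 := by
    rw [← B.sum_repr (logMap x)]
    refine (norm_sum_le _ _).trans (Finset.sum_le_sum fun i _ => ?_)
    rw [_root_.norm_smul]
    refine mul_le_of_le_one_left (norm_nonneg _) (le_of_lt (tent_ne_zero ?_))
    intro h0
    apply hx
    rw [cutoff, if_neg hN]
    exact Finset.prod_eq_zero (Finset.mem_univ i) h0
  set ℓ : InfinitePlace K → ℝ := fun w => Real.log (normAtPlace w x) -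
      Real.log (mixedEmbedding.norm x) * (finrank ℚ K : ℝ)⁻¹
  have hsum : ∑ w, (mult w : ℝ) * ℓ w = 0 := by
    simp only [ℓ, mul_sub, Finset.sum_sub_distrib, ← Finset.sum_mul, sum_mult_real, ← log_norm_eq hN]
    have : (finrank ℚ K : ℝ) ≠ 0 := by exact_mod_cast finrank_pos.ne'
    field_simp
    ring
  have hℓ : ∀ w, w ≠ w₀ → |(mult w : ℝ) * ℓ w| ≤ R0 := fun w hw => by
    have := (norm_le_pi_norm (logMap x) ⟨w, hw⟩).trans hlog
    simpa [Real.norm_eq_abs, ℓ] using this
  intro w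
  show |ℓ w| ≤ _
  by_cases hw : w = w₀
  · subst hw
    refine le_max_of_le_right ?_
    classical
    have h1 : (mult (w₀ : InfinitePlace K) : ℝ) * ℓ w₀ =
        -∑ w ∈ Finset.univ.erase w₀, (mult w : ℝ) * ℓ w := by
      rw [eq_neg_iff_add_eq_zero]
      exact (Finset.add_sum_erase _ (fun w => (mult w : ℝ) * ℓ w) (Finset.mem_univ _)).trans hsum
    calc |ℓ w₀| ≤ |(mult (w₀ : InfinitePlace K) : ℝ) * ℓ w₀| := by
          rw [abs_mul, Nat.abs_cast]
          exact le_mul_of_one_le_left (abs_nonneg _) one_le_mult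
      _ ≤ ∑ w ∈ Finset.univ.erase w₀, (mult w : ℝ) * R0 := by
          rw [h1, abs_neg]
          refine (Finset.abs_sum_le_sum_abs _ _).trans (Finset.sum_le_sum fun w hw => ?_)
          exact (hℓ w (Finset.ne_of_mem_erase hw)).trans (le_mul_of_one_le_left hR0 one_le_mult)
      _ ≤ ∑ w, (mult w : ℝ) * R0 :=
          Finset.sum_le_sum_of_subset_of_nonneg (Finset.erase_subset _ _)
            fun w _ _ => by positivity
      _ = _ := by rw [← Finset.sum_mul, sum_mult_real]
  · refine le_max_of_le_left ((le_trans ?_ (hℓ w hw)))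
    rw [abs_mul, Nat.abs_cast]
    exact le_mul_of_one_le_left (abs_nonneg _) one_le_mult

/-- On the support of `cutoff` all absolute values are comparable to the norm of the vector. -/
lemma exists_cutoff_comparable (K : Type*) [Field K] [NumberField K] :
    ∃ κ : ℝ, 0 < κ ∧ ∀ x : mixedSpace K, cutoff x ≠ 0 → ∀ w, κ * ‖x‖ ≤ normAtPlace w x := by
  obtain ⟨R, hR⟩ := exists_cutoff_bound K
  refine ⟨Real.exp (-(2 * R)), Real.exp_pos _, fun x hx w => ?_⟩
  have hpos : ∀ w, 0 < normAtPlace w x := fun w => lt_of_le_of_ne (normAtPlace_nonneg w x)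
    (mixedEmbedding.norm_ne_zero_iff.mp (norm_ne_zero_of_cutoff hx) w).symm
  obtain ⟨v, -, hv⟩ := Finset.exists_mem_eq_sup' Finset.univ_nonempty fun w => normAtPlace w x
  rw [norm_eq_sup'_normAtPlace, hv]
  calc Real.exp (-(2 * R)) * normAtPlace v x
      = Real.exp (-(2 * R) + Real.log (normAtPlace v x)) := by
        rw [Real.exp_add, Real.exp_log (hpos v)]
    _ ≤ Real.exp (Real.log (normAtPlace w x)) := by
        refine Real.exp_le_exp.mpr ?_
        have hv := abs_le.mp (hR x hx v)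
        have hw := abs_le.mp (hR x hx w)
        linarith
    _ = _ := Real.exp_log (hpos w)

lemma rpow_norm_le {κ : ℝ} (hκ : 0 < κ) {x : mixedSpace K}
    (h : ∀ w, κ * ‖x‖ ≤ normAtPlace w x) (hx : x ≠ 0) {s : ℝ} (hs : 0 ≤ s) :
    mixedEmbedding.norm x ^ (-s) ≤
      (κ ^ (finrank ℚ K)) ^ (-s) * ‖x‖ ^ (-((finrank ℚ K : ℝ) * s)) := by
  have hxn : 0 < ‖x‖ := norm_pos_iff.mpr hx
  have hle : κ ^ (finrank ℚ K) * ‖x‖ ^ (finrank ℚ K) ≤ mixedEmbedding.norm x := by
    rw [mixedEmbedding.norm_apply, ← mul_pow, ← sum_mult_eq (K := K),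
      ← Finset.prod_pow_eq_pow_sum]
    exact Finset.prod_le_prod (fun w _ => by positivity) fun w _ =>
      pow_le_pow_left₀ (by positivity) (h w) _
  refine (Real.rpow_le_rpow_of_nonpos (by positivity) hle (by linarith)).trans_eq ?_
  rw [Real.mul_rpow (by positivity) (by positivity), ← Real.rpow_natCast ‖x‖,
    ← Real.rpow_mul hxn.le, mul_neg]

/-- The bound on `coneTerm` used for summability. -/
lemma exists_coneTerm_le_rpow (K : Type*) [Field K] [NumberField K] :
    ∃ κ : ℝ, 0 < κ ∧ ∀ s : ℝ, 0 ≤ s → ∀ x : mixedSpace K,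
      coneTerm s x ≤ (κ ^ (finrank ℚ K)) ^ (-s) * ‖x‖ ^ (-((finrank ℚ K : ℝ) * s)) := by
  obtain ⟨κ, hκ, hc⟩ := exists_cutoff_comparable K
  refine ⟨κ, hκ, fun s hs x => ?_⟩
  by_cases h : cutoff x = 0
  · rw [coneTerm, h, zero_mul]; positivity
  refine le_trans (mul_le_of_le_one_left (Real.rpow_nonneg (mixedEmbedding.norm_nonneg x) _)
    (cutoff_mem x).2) (rpow_norm_le hκ (hc x h) ?_ hs)
  rintro rfl
  exact h (by simp [cutoff])

lemma abs_log_sub_log_le {a b ε : ℝ} (ha : 0 < a) (hε0 : 0 ≤ ε) (hε : ε ≤ 1 / 2)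
    (hl : (1 - ε) * a ≤ b) (hu : b ≤ (1 + ε) * a) : |Real.log b - Real.log a| ≤ 2 * ε := by
  have hb : 0 < b := lt_of_lt_of_le (mul_pos (by linarith) ha) hl
  have h1 := Real.log_le_sub_one_of_pos (div_pos ha hb)
  have h2 := Real.log_le_sub_one_of_pos (div_pos hb ha)
  rw [Real.log_div ha.ne' hb.ne'] at h1
  rw [Real.log_div hb.ne' ha.ne'] at h2
  have h3 : b / a ≤ 1 + ε := by rw [div_le_iff₀ ha]; exact hu
  have h4 : a / b ≤ 1 + 2 * ε := by
    rw [div_le_iff₀ hb]
    calc a ≤ (1 + 2 * ε) * ((1 - ε) * a) := by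
          nlinarith [mul_nonneg (mul_nonneg hε0 ha.le) (show (0 : ℝ) ≤ 1 - 2 * ε by linarith)]
      _ ≤ _ := mul_le_mul_of_nonneg_left hl (by linarith)
  rw [abs_le]
  constructor <;> linarith

/-- Effect of a small perturbation on the norm and on the logarithm map. -/
lemma perturb {x t : mixedSpace K} {ε : ℝ} (hN : mixedEmbedding.norm x ≠ 0) (hε0 : 0 ≤ ε)
    (hε : ε ≤ 1 / 2) (ht : ∀ w, normAtPlace w t ≤ ε * normAtPlace w x) :
    mixedEmbedding.norm (x + t) ≠ 0 ∧
      |Real.log (mixedEmbedding.norm (x + t)) - Real.log (mixedEmbedding.norm x)| ≤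
        2 * ε * (finrank ℚ K : ℝ) ∧
      ‖logMap (x + t) - logMap x‖ ≤ 4 * (finrank ℚ K : ℝ) * ε := by
  have hpos : ∀ w, 0 < normAtPlace w x := fun w => lt_of_le_of_ne (normAtPlace_nonneg w x)
    (mixedEmbedding.norm_ne_zero_iff.mp hN w).symm
  have hlow : ∀ w, (1 - ε) * normAtPlace w x ≤ normAtPlace w (x + t) := fun w => by
    have := normAtPlace_add_le w (x + t) (-t)
    rw [add_neg_cancel_right, normAtPlace_neg] at this
    linarith [ht w]
  have hup : ∀ w, normAtPlace w (x + t) ≤ (1 + ε) * normAtPlace w x := fun w => by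
    linarith [ht w, normAtPlace_add_le w x t]
  have hN' : mixedEmbedding.norm (x + t) ≠ 0 := mixedEmbedding.norm_ne_zero_iff.mpr fun w =>
    (lt_of_lt_of_le (mul_pos (by linarith) (hpos w)) (hlow w)).ne'
  have hlogw := fun w => abs_log_sub_log_le (hpos w) hε0 hε (hlow w) (hup w)
  have hlogN : |Real.log (mixedEmbedding.norm (x + t)) - Real.log (mixedEmbedding.norm x)| ≤
      2 * ε * (finrank ℚ K : ℝ) := by
    rw [log_norm_eq hN, log_norm_eq hN', ← Finset.sum_sub_distrib, ← sum_mult_real (K := K),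
      Finset.mul_sum]
    refine (Finset.abs_sum_le_sum_abs _ _).trans (Finset.sum_le_sum fun w _ => ?_)
    rw [← mul_sub, abs_mul, Nat.abs_cast, mul_comm (2 * ε)]
    exact mul_le_mul_of_nonneg_left (hlogw w) (Nat.cast_nonneg _)
  refine ⟨hN', hlogN, (pi_norm_le_iff_of_nonneg (by positivity)).mpr fun w => ?_⟩
  rw [Real.norm_eq_abs, Pi.sub_apply, logMap_apply, logMap_apply, ← mul_sub, abs_mul, Nat.abs_cast]
  have hm : (mult w.val : ℝ) ≤ finrank ℚ K := by
    rw [← sum_mult_real (K := K)]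
    exact Finset.single_le_sum (fun v _ => Nat.cast_nonneg (mult v)) (Finset.mem_univ w.val)
  have hd0 : (0 : ℝ) < finrank ℚ K := by exact_mod_cast finrank_pos
  have h2 : |(Real.log (mixedEmbedding.norm (x + t)) -
      Real.log (mixedEmbedding.norm x)) * (finrank ℚ K : ℝ)⁻¹| ≤ 2 * ε := by
    rw [abs_mul, abs_of_pos (inv_pos.mpr hd0), ← div_eq_mul_inv, div_le_iff₀ hd0]
    exact hlogN
  refine le_trans (mul_le_mul hm ?_ (abs_nonneg _) hd0.le) (le_of_eq (?_ :
    (finrank ℚ K : ℝ) * (4 * ε) = _))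
  · rw [show ∀ a b c e : ℝ, a - b * c - (e - (Real.log (mixedEmbedding.norm x)) * c) =
      (a - e) - (b - Real.log (mixedEmbedding.norm x)) * c from fun a b c e => by ring]
    refine (abs_sub _ _).trans ?_
    linarith [hlogw w.val]
  · ring

lemma abs_rpow_sub_rpow_le {a b δ s : ℝ} (ha : 0 < a) (hb : 0 < b)
    (h : |Real.log b - Real.log a| ≤ δ) (hs0 : 0 ≤ s) (hs : s ≤ 2) (hδ : δ ≤ 1 / 4) :
    |b ^ (-s) - a ^ (-s)| ≤ a ^ (-s) * (4 * δ) := by
  rw [Real.rpow_def_of_pos ha, Real.rpow_def_of_pos hb]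
  have habs : |(Real.log b - Real.log a) * -s| ≤ 2 * δ := by
    rw [abs_mul, abs_neg, abs_of_nonneg hs0]
    calc |Real.log b - Real.log a| * s ≤ δ * 2 :=
          mul_le_mul h hs hs0 ((abs_nonneg _).trans h)
      _ = _ := by ring
  rw [show Real.log b * -s = Real.log a * -s + (Real.log b - Real.log a) * -s by ring,
    Real.exp_add, ← mul_sub_one, abs_mul, abs_of_pos (Real.exp_pos _)]
  refine mul_le_mul_of_nonneg_left ((Real.abs_exp_sub_one_le (by linarith)).trans ?_)
    (Real.exp_pos _).le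
  linarith

lemma rpow_neg_le_add {a s : ℝ} (ha : 0 < a) (hs : s ∈ Set.Icc (1 : ℝ) 2) :
    a ^ (-s) ≤ a ^ (-2 : ℝ) + a ^ (-1 : ℝ) := by
  rcases le_total 1 a with h | h
  · refine le_trans (Real.rpow_le_rpow_of_exponent_le h (show -s ≤ -1 by linarith [hs.1])) ?_
    exact le_add_of_nonneg_left (by positivity)
  · refine le_trans (Real.rpow_le_rpow_of_exponent_ge ha h
      (show (-2 : ℝ) ≤ -s by linarith [hs.2])) ?_
    exact le_add_of_nonneg_right (by positivity)

lemma exists_cutoff_lipschitz (K : Type*) [Field K] [NumberField K] :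
    ∃ c : ℝ, 0 ≤ c ∧ ∀ x y : mixedSpace K, mixedEmbedding.norm x ≠ 0 →
      mixedEmbedding.norm y ≠ 0 → |cutoff y - cutoff x| ≤ c * ‖logMap y - logMap x‖ := by
  let T : logSpace K →L[ℝ] (Fin (Units.rank K) → ℝ) :=
    LinearMap.toContinuousLinearMap (unitLogBasis K).equivFun.toLinearMap
  refine ⟨(Units.rank K : ℝ) * ‖T‖, by positivity, fun x y hx hy => ?_⟩
  rw [cutoff, cutoff, if_neg hx, if_neg hy]
  refine (abs_prod_sub_prod_le _ (fun i _ => ⟨tent_nonneg _, tent_le_one _⟩)
    fun i _ => ⟨tent_nonneg _, tent_le_one _⟩).trans ?_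
  calc ∑ i, |tent (logCoord y i) - tent (logCoord x i)|
      ≤ ∑ _i : Fin (Units.rank K), ‖T‖ * ‖logMap y - logMap x‖ := by
        refine Finset.sum_le_sum fun i _ => (abs_tent_sub_le _ _).trans ?_
        calc |logCoord y i - logCoord x i| = ‖T (logMap y - logMap x) i‖ := by
              rw [map_sub, Pi.sub_apply, Real.norm_eq_abs]
              rfl
          _ ≤ ‖T (logMap y - logMap x)‖ := norm_le_pi_norm _ i
          _ ≤ _ := T.le_opNorm _
    _ = _ := by rw [Finset.sum_const, Finset.card_univ, Fintype.card_fin, nsmul_eq_mul]; ring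

/-- Bounded translations change `coneTerm` by `O(‖x‖ ^ (-(d + 1)))`, on the support. -/
lemma exists_coneTerm_sub_le_of_cutoff (K : Type*) [Field K] [NumberField K] :
    ∃ C ρ : ℝ, 0 ≤ C ∧ 0 < ρ ∧ ρ ≤ 1 / 2 ∧ ∀ s ∈ Set.Icc (1 : ℝ) 2, ∀ x t : mixedSpace K,
      1 ≤ ‖x‖ → cutoff x ≠ 0 → ‖t‖ ≤ ρ * ‖x‖ →
      |coneTerm s (x + t) - coneTerm s x| ≤
        C * ‖t‖ * ‖x‖ ^ (-((finrank ℚ K : ℝ) + 1)) := by
  obtain ⟨κ, hκ, hcomp⟩ := exists_cutoff_comparable K
  obtain ⟨c, hc0, hlip⟩ := exists_cutoff_lipschitz K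
  have hd1 : (1 : ℝ) ≤ finrank ℚ K := by exact_mod_cast finrank_pos
  set d : ℝ := (finrank ℚ K : ℝ) with hd
  set a : ℝ := κ ^ (finrank ℚ K) with ha
  have ha0 : 0 < a := by positivity
  set κd : ℝ := a ^ (-2 : ℝ) + a ^ (-1 : ℝ) with hκd
  have hκd0 : 0 ≤ κd := by positivity
  refine ⟨(4 * c + 8) * d * κd * κ⁻¹, min (1 / 2) (κ / (8 * d)), by positivity,
    lt_min (by norm_num) (by positivity), min_le_left _ _, fun s hs x t hx1 hx ht => ?_⟩
  have hxn : 0 < ‖x‖ := by linarith
  have hN : mixedEmbedding.norm x ≠ 0 := norm_ne_zero_of_cutoff hx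
  set ε : ℝ := ‖t‖ / (κ * ‖x‖) with hε
  have hε0 : 0 ≤ ε := by positivity
  have hε8 : 2 * ε * d ≤ 1 / 4 := by
    have h1 : ε ≤ 1 / (8 * d) := by
      rw [hε, div_le_iff₀ (by positivity)]
      calc ‖t‖ ≤ κ / (8 * d) * ‖x‖ :=
            ht.trans (mul_le_mul_of_nonneg_right (min_le_right _ _) hxn.le)
        _ = _ := by ring
    calc 2 * ε * d ≤ 2 * (1 / (8 * d)) * d := by gcongr
      _ = 1 / 4 := by field_simp; ring
  have hnt : ∀ w, normAtPlace w t ≤ ε * normAtPlace w x := fun w => by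
    have h1 : normAtPlace w t ≤ ‖t‖ := by
      rw [norm_eq_sup'_normAtPlace]
      exact Finset.le_sup' (fun w => normAtPlace w t) (Finset.mem_univ w)
    refine h1.trans ?_
    rw [hε, div_mul_eq_mul_div, le_div_iff₀ (by positivity)]
    exact mul_le_mul_of_nonneg_left (hcomp x hx w) (norm_nonneg _)
  obtain ⟨hN', hlogN, hlm⟩ := perturb hN hε0 (by nlinarith) hnt
  have hNp : 0 < mixedEmbedding.norm x := lt_of_le_of_ne (mixedEmbedding.norm_nonneg x) hN.symm
  have hNp' : 0 < mixedEmbedding.norm (x + t) :=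
    lt_of_le_of_ne (mixedEmbedding.norm_nonneg _) hN'.symm
  have hpw := abs_rpow_sub_rpow_le hNp hNp' hlogN (by linarith [hs.1]) hs.2 hε8
  have hcut : |cutoff (x + t) - cutoff x| ≤ c * (4 * d * ε) :=
    (hlip x (x + t) hN hN').trans (mul_le_mul_of_nonneg_left hlm hc0)
  have hP := Real.rpow_nonneg hNp.le (-s)
  have hkey : |coneTerm s (x + t) - coneTerm s x| ≤
      (4 * c + 8) * d * ε * mixedEmbedding.norm x ^ (-s) := by
    calc |coneTerm s (x + t) - coneTerm s x|
        = |(cutoff (x + t) - cutoff x) * mixedEmbedding.norm x ^ (-s) + cutoff (x + t) *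
            (mixedEmbedding.norm (x + t) ^ (-s) - mixedEmbedding.norm x ^ (-s))| := by
          unfold coneTerm; congr 1; ring
      _ ≤ c * (4 * d * ε) * mixedEmbedding.norm x ^ (-s) +
            1 * (mixedEmbedding.norm x ^ (-s) * (4 * (2 * ε * d))) := by
          refine (abs_add_le _ _).trans (add_le_add ?_ ?_)
          · rw [abs_mul, abs_of_nonneg hP]
            exact mul_le_mul_of_nonneg_right hcut hP
          · rw [abs_mul]
            exact mul_le_mul (by rw [abs_of_nonneg (cutoff_mem _).1]; exact (cutoff_mem _).2) hpw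
              (abs_nonneg _) zero_le_one
      _ = _ := by ring
  have hrp : mixedEmbedding.norm x ^ (-s) ≤ κd * ‖x‖ ^ (-d) :=
    (rpow_norm_le hκ (hcomp x hx) (norm_pos_iff.mp hxn) (by linarith [hs.1])).trans
      (mul_le_mul (rpow_neg_le_add ha0 hs)
        (Real.rpow_le_rpow_of_exponent_le hx1 (by nlinarith [hs.1]))
        (Real.rpow_nonneg hxn.le _) hκd0)
  refine hkey.trans ((mul_le_mul_of_nonneg_left hrp (by positivity)).trans_eq ?_)
  rw [hε, show -(d + 1) = -d + -1 by ring, Real.rpow_add hxn, Real.rpow_neg_one]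
  field_simp

/-- Bounded translations change `coneTerm` by `O(‖x‖ ^ (-(d + 1)))`. -/
theorem exists_coneTerm_sub_le (K : Type*) [Field K] [NumberField K] (t : mixedSpace K) :
    ∃ C R : ℝ, 0 ≤ C ∧ ∀ s ∈ Set.Icc (1 : ℝ) 2, ∀ x : mixedSpace K, R ≤ ‖x‖ →
      |coneTerm s (x + t) - coneTerm s x| ≤ C * ‖x‖ ^ (-((finrank ℚ K : ℝ) + 1)) := by
  obtain ⟨C, ρ, hC, hρ, hρ2, h⟩ := exists_coneTerm_sub_le_of_cutoff K
  set e : ℝ := (finrank ℚ K : ℝ) + 1
  refine ⟨C * ‖t‖ * 2 ^ e, max 2 (2 * ‖t‖ / ρ), by positivity, fun s hs x hxR => ?_⟩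
  have hx2 : 2 ≤ ‖x‖ := (le_max_left _ _).trans hxR
  have hxt : 2 * ‖t‖ ≤ ρ * ‖x‖ := by
    have := (div_le_iff₀ hρ).mp ((le_max_right _ _).trans hxR)
    linarith
  have h2e : (1 : ℝ) ≤ 2 ^ e := Real.one_le_rpow (by norm_num) (by positivity)
  by_cases hx : cutoff x = 0
  · by_cases hy : cutoff (x + t) = 0
    · simp only [coneTerm, hx, hy, zero_mul, sub_self, abs_zero]
      positivity
    · have hy2 : ‖x‖ / 2 ≤ ‖x + t‖ := by
        have := norm_sub_norm_le x (-t)
        rw [norm_neg, sub_neg_eq_add] at this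
        nlinarith [norm_nonneg t]
      have := h s hs (x + t) (-t) (by linarith) hy (by rw [norm_neg]; nlinarith)
      rw [add_neg_cancel_right, norm_neg, abs_sub_comm] at this
      refine this.trans ?_
      rw [mul_assoc _ (2 ^ e)]
      refine mul_le_mul_of_nonneg_left ?_ (by positivity)
      refine (Real.rpow_le_rpow_of_nonpos (by linarith) hy2 (neg_nonpos.mpr (by positivity))).trans_eq ?_
      rw [Real.div_rpow (by linarith) (by norm_num), Real.rpow_neg (by norm_num : (0:ℝ) ≤ 2),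
        div_inv_eq_mul, mul_comm]
  · refine (h s hs x t (by linarith) hx (by linarith [norm_nonneg t])).trans ?_
    refine mul_le_mul_of_nonneg_right (le_mul_of_one_le_right (by positivity) h2e) (by positivity)

end Fermat.Agent.S14
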