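import Mathlib.NumberTheory.NumberField.ClassNumber
import Mathlib.Algebra.Module.ZLattice.Summable
import Mathlib.RingTheory.Ideal.Norm.AbsNorm
import Fermat.Agent.S14.Analytic.Cone

/-!
# Ideal-class Dirichlet series as weighted lattice sums

The partial zeta functions of two ideal classes differ by a bounded function on `1 < s ≤ 2`.
-/

set_option autoImplicit false

noncomputable section

namespace Fermat.Agent.S14

open Module NumberField NumberField.InfinitePlace NumberField.mixedEmbedding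
  NumberField.Units NumberField.Units.dirichletUnitTheorem
open scoped Classical nonZeroDivisors

variable {K : Type*} [Field K] [NumberField K]

/-- The image of an algebraic integer in the mixed space. -/
def intEmb (x : 𝓞 K) : mixedSpace K := mixedEmbedding K (x : K)

lemma intEmb_injective : Function.Injective (intEmb (K := K)) :=
  (mixedEmbedding_injective K).comp RingOfIntegers.coe_injective

omit [NumberField K] in
lemma intEmb_add (x y : 𝓞 K) : intEmb (x + y) = intEmb x + intEmb y := by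
  simp only [intEmb, map_add]

omit [NumberField K] in
@[simp] lemma intEmb_zero : intEmb (0 : 𝓞 K) = 0 := by
  simp only [intEmb, map_zero]

omit [NumberField K] in
lemma intEmb_unit_mul (u : (𝓞 K)ˣ) (x : 𝓞 K) :
    intEmb ((u : 𝓞 K) * x) = u • intEmb x := by
  simp only [intEmb, unitSMul_smul, ← map_mul]

/-- The weighted summand at an algebraic integer. -/
def intTerm (s : ℝ) (x : 𝓞 K) : ℝ := coneTerm s (intEmb x)

lemma intTerm_nonneg (s : ℝ) (x : 𝓞 K) : 0 ≤ intTerm s x := coneTerm_nonneg _ _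

lemma summable_norm_intEmb_rpow {r : ℝ} (hr : r < -(finrank ℚ K : ℝ)) :
    Summable fun x : 𝓞 K => ‖intEmb x‖ ^ r := by
  have h : finrank ℤ (mixedEmbedding.integerLattice K) = finrank ℚ K := by
    rw [ZLattice.rank ℝ, mixedEmbedding.finrank]
  have hs := ZLattice.summable_norm_rpow (mixedEmbedding.integerLattice K) r (by rwa [h])
  let f : 𝓞 K → mixedEmbedding.integerLattice K := fun x => ⟨intEmb x, x, rfl⟩
  exact hs.comp_injective (i := f) fun a b hab => intEmb_injective (congrArg Subtype.val hab)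

lemma summable_intTerm {s : ℝ} (hs : 1 < s) : Summable (intTerm (K := K) s) := by
  obtain ⟨κ, -, h⟩ := exists_coneTerm_le_rpow K
  refine Summable.of_nonneg_of_le (intTerm_nonneg s) (fun x => h s (by linarith) _)
    ((summable_norm_intEmb_rpow ?_).mul_left _)
  have : (0 : ℝ) < finrank ℚ K := by exact_mod_cast finrank_pos
  nlinarith

lemma finite_norm_intEmb_lt (R : ℝ) : {x : 𝓞 K | ‖intEmb x‖ < R}.Finite := by
  set r : ℝ := -((finrank ℚ K : ℝ) + 1)
  have h := summable_norm_intEmb_rpow (K := K) (r := r) (by simp [r])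
  rcases le_or_gt R 0 with hR | hR
  · exact Set.Finite.subset Set.finite_empty fun x (hx : ‖intEmb x‖ < R) =>
      absurd hx (not_lt.mpr (hR.trans (norm_nonneg _)))
  have hf := Filter.eventually_cofinite.mp (h.tendsto_cofinite_zero.eventually
    (eventually_lt_nhds (show (0 : ℝ) < R ^ r by positivity)))
  refine (hf.insert 0).subset fun x (hx : ‖intEmb x‖ < R) => ?_
  by_cases hx0 : x = 0
  · exact Or.inl hx0
  refine Or.inr (not_lt.mpr (Real.rpow_le_rpow_of_nonpos ?_ hx.le ?_))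
  · exact norm_pos_iff.mpr fun h0 => hx0 (intEmb_injective (by rwa [intEmb_zero]))
  · have : (0 : ℝ) < finrank ℚ K := by exact_mod_cast finrank_pos
    simp [r]; linarith

/-- Translating the weighted sum over an ideal costs a bounded amount. -/
lemma exists_abs_translate_le (a : Ideal (𝓞 K)) (t : 𝓞 K) :
    ∃ C : ℝ, ∀ s : ℝ, 1 < s → s ≤ 2 →
      |(∑' y : a, intTerm s (t + (y : 𝓞 K))) - ∑' y : a, intTerm s (y : 𝓞 K)| ≤ C := by
  obtain ⟨C, R, hC, h⟩ := exists_coneTerm_sub_le K (intEmb t)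
  set r : ℝ := -((finrank ℚ K : ℝ) + 1)
  set F : Set (𝓞 K) := {x | ‖intEmb x‖ < R}
  have hF : F.Finite := finite_norm_intEmb_lt R
  let B : 𝓞 K → ℝ := fun y => (1 + mixedEmbedding.norm (intEmb (t + y)) ^ (-2 : ℝ)) +
    (1 + mixedEmbedding.norm (intEmb y) ^ (-2 : ℝ))
  let b : 𝓞 K → ℝ := fun y => C * ‖intEmb y‖ ^ r + F.indicator B y
  have hb : Summable b := ((summable_norm_intEmb_rpow (by simp [r])).mul_left C).add
    (summable_of_hasFiniteSupport (hF.subset Set.support_indicator_subset))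
  refine ⟨∑' y : a, b (y : 𝓞 K), fun s h1 h2 => ?_⟩
  have hS := summable_intTerm (K := K) h1
  have hs1 : Summable fun y : a => intTerm s (t + (y : 𝓞 K)) :=
    hS.comp_injective (i := fun y : a => t + (y : 𝓞 K))
      fun y z hyz => Subtype.ext (add_left_cancel hyz)
  have hs2 : Summable fun y : a => intTerm s (y : 𝓞 K) := hS.comp_injective Subtype.val_injective
  rw [← hs1.tsum_sub hs2]
  have hle : ∀ y : a, |intTerm s (t + (y : 𝓞 K)) - intTerm s (y : 𝓞 K)| ≤ b (y : 𝓞 K) := fun y => by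
    have hBnn : 0 ≤ C * ‖intEmb (y : 𝓞 K)‖ ^ r := by positivity
    by_cases hy : (y : 𝓞 K) ∈ F
    · simp only [b, Set.indicator_of_mem hy, B]
      have e1 := coneTerm_le (K := K) (s := s) ⟨h1.le, h2⟩ (intEmb (t + (y : 𝓞 K)))
      have e2 := coneTerm_le (K := K) (s := s) ⟨h1.le, h2⟩ (intEmb (y : 𝓞 K))
      have e3 := coneTerm_nonneg (K := K) s (intEmb (t + (y : 𝓞 K)))
      have e4 := coneTerm_nonneg (K := K) s (intEmb (y : 𝓞 K))
      rw [abs_le]
      constructor <;> simp only [intTerm] <;> linarith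
    · simp only [b, Set.indicator_of_notMem hy, add_zero, intTerm]
      rw [add_comm t, intEmb_add]
      exact h s ⟨h1.le, h2⟩ _ (not_lt.mp hy)
  have hbs : Summable fun y : a => b (y : 𝓞 K) := hb.comp_injective Subtype.val_injective
  calc |∑' y : a, (intTerm s (t + (y : 𝓞 K)) - intTerm s (y : 𝓞 K))|
      ≤ ∑' y : a, |intTerm s (t + (y : 𝓞 K)) - intTerm s (y : 𝓞 K)| := by
        have := norm_tsum_le_tsum_norm (f := fun y : a => intTerm s (t + (y : 𝓞 K)) - intTerm s (y : 𝓞 K))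
          (Summable.of_nonneg_of_le (fun _ => norm_nonneg _) hle hbs)
        simpa only [Real.norm_eq_abs] using this
    _ ≤ _ := Summable.tsum_le_tsum hle
        (Summable.of_nonneg_of_le (fun _ => abs_nonneg _) hle hbs) hbs

/-- A sum over a group, coset by coset. -/
lemma tsum_eq_sum_cosets {G : Type*} [AddCommGroup G] (H : AddSubgroup G) [Fintype (G ⧸ H)]
    {f : G → ℝ} (hf : Summable f) :
    ∑' x, f x = ∑ q : G ⧸ H, ∑' y : H, f (q.out + y) := by
  let e₀ : (G ⧸ H) × H → G := fun z => z.1.out + z.2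
  have hb : Function.Bijective e₀ := by
    refine ⟨fun z z' h => ?_, fun x => ?_⟩
    · have h1 : z.1 = z'.1 := by
        have := congrArg (QuotientAddGroup.mk : G → G ⧸ H) h
        simp only [e₀, QuotientAddGroup.mk_add, QuotientAddGroup.out_eq'] at this
        rwa [(QuotientAddGroup.eq_zero_iff _).mpr z.2.2, (QuotientAddGroup.eq_zero_iff _).mpr z'.2.2,
          add_zero, add_zero] at this
      refine Prod.ext h1 (Subtype.ext ?_)
      simpa [e₀, h1] using h
    · exact ⟨((x : G ⧸ H), ⟨_, QuotientAddGroup.eq.mp (QuotientAddGroup.out_eq' (x : G ⧸ H))⟩),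
        by simp [e₀]⟩
  let e : (G ⧸ H) × H ≃ G := Equiv.ofBijective e₀ hb
  have he : ∀ q y, e (q, y) = q.out + y := fun q y => rfl
  have hs : Summable fun z => f (e z) := e.summable_iff.mpr hf
  rw [← e.tsum_eq, hs.tsum_prod, tsum_fintype]
  simp only [he]

/-- The weighted sum over `𝓞 K` is the index times the sum over an ideal, up to `O(1)`. -/
lemma exists_abs_tsum_sub_le (a : Ideal (𝓞 K)) (ha : a ≠ ⊥) :
    ∃ C : ℝ, ∀ s : ℝ, 1 < s → s ≤ 2 →
      |(∑' x : 𝓞 K, intTerm s x) - (Ideal.absNorm a : ℝ) * ∑' y : a, intTerm s (y : 𝓞 K)| ≤ C := by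
  have hN : Nat.card (𝓞 K ⧸ a.toAddSubgroup) = Ideal.absNorm a := rfl
  have : Finite (𝓞 K ⧸ a.toAddSubgroup) :=
    Nat.finite_of_card_ne_zero (by rw [hN]; exact mt Ideal.absNorm_eq_zero_iff.mp ha)
  have := Fintype.ofFinite (𝓞 K ⧸ a.toAddSubgroup)
  choose C hC using fun q : 𝓞 K ⧸ a.toAddSubgroup => exists_abs_translate_le a q.out
  refine ⟨∑ q, C q, fun s h1 h2 => ?_⟩
  have hco : ∑' x : 𝓞 K, intTerm s x = ∑ q : 𝓞 K ⧸ a.toAddSubgroup,
      ∑' y : a, intTerm s (q.out + (y : 𝓞 K)) :=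
    tsum_eq_sum_cosets a.toAddSubgroup (summable_intTerm h1)
  rw [← hN, Nat.card_eq_fintype_card, hco, ← nsmul_eq_mul, ← Finset.card_univ, ← Finset.sum_const,
    ← Finset.sum_sub_distrib]
  exact (Finset.abs_sum_le_sum_abs _ _).trans (Finset.sum_le_sum fun q _ => hC q s h1 h2)

/-- The translates of `cutoff` by the units sum to the torsion order. -/
lemma hasSum_cutoff_unit_smul {x : mixedSpace K} (hx : mixedEmbedding.norm x ≠ 0) :
    HasSum (fun u : (𝓞 K)ˣ => cutoff (u • x)) (torsionOrder K : ℝ) := by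
  let e : (torsion K) × (Fin (Units.rank K) → ℤ) → (𝓞 K)ˣ :=
    fun z => z.1 * ∏ i, fundSystem K i ^ z.2 i
  have he : Function.Bijective e := by
    refine ⟨fun z z' h => ?_, fun u => ?_⟩
    · exact (exist_unique_eq_mul_prod K (e z)).unique rfl h
    · obtain ⟨z, hz, -⟩ := exist_unique_eq_mul_prod K u
      exact ⟨z, hz.symm⟩
  have hval : ∀ z, cutoff (e z • x) = ∏ i, tent (logCoord x i + z.2 i) := fun z => by
    rw [cutoff, if_neg (by rwa [norm_unit_smul])]
    refine Finset.prod_congr rfl fun i _ => ?_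
    congr 1
    simp only [logCoord, logMap_unit_smul _ hx, e, ofMul_mul, ofMul_prod, map_add, map_sum,
      (logEmbedding_eq_zero_iff).mpr z.1.2, zero_add, ofMul_zpow, map_zsmul,
      logEmbedding_fundSystem, Finsupp.add_apply, Finsupp.coe_finsetSum, Finset.sum_apply]
    rw [Finset.sum_eq_single i]
    · simp [unitLogBasis, add_comm]
    · intro j _ hj
      simp [unitLogBasis, hj]
    · simp
  refine ((Equiv.ofBijective e he).hasSum_iff).mp ?_
  show HasSum (fun z => cutoff (e z • x)) _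
  simp only [hval]
  set c := logCoord x
  have := Fintype.ofFinite (torsion K)
  let T : Fin (Units.rank K) → Finset ℤ := fun i => {-⌊c i⌋, -⌊c i⌋ - 1}
  have hT : ∀ i, ∀ n ∉ T i, tent (c i + n) = 0 := fun i n hn => by
    by_contra h
    have h' := abs_lt.mp (tent_ne_zero h)
    simp only [T, Finset.mem_insert, Finset.mem_singleton, not_or] at hn
    have hfl := Int.floor_le (c i)
    have hlt := Int.lt_floor_add_one (c i)
    rcases lt_or_gt_of_ne hn.1 with h1 | h1
    · have : (n : ℝ) ≤ -(⌊c i⌋ : ℝ) - 2 := by exact_mod_cast (show n ≤ -⌊c i⌋ - 2 by omega)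
      linarith
    · have : -(⌊c i⌋ : ℝ) + 1 ≤ n := by exact_mod_cast (show -⌊c i⌋ + 1 ≤ n by omega)
      linarith
  have hone : ∀ i, ∑ n ∈ T i, tent (c i + n) = 1 := fun i =>
    (hasSum_sum_of_ne_finset_zero (hT i)).unique (hasSum_tent (c i))
  have key : HasSum (fun z : (torsion K) × (Fin (Units.rank K) → ℤ) => ∏ i, tent (c i + z.2 i))
      (∑ z ∈ (Finset.univ : Finset (torsion K)) ×ˢ Fintype.piFinset T,
        ∏ i, tent (c i + z.2 i)) := by
    refine hasSum_sum_of_ne_finset_zero fun z hz => ?_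
    rw [Finset.mem_product] at hz
    simp only [Finset.mem_univ, true_and, Fintype.mem_piFinset, not_forall] at hz
    obtain ⟨i, hi⟩ := hz
    exact Finset.prod_eq_zero (Finset.mem_univ i) (hT i _ hi)
  convert key using 1
  rw [Finset.sum_product]
  simp only
  rw [Finset.sum_const, ← Finset.prod_univ_sum T (fun i (n : ℤ) => tent (c i + n)),
    Finset.prod_eq_one (fun i _ => hone i), Finset.card_univ, nsmul_one,
    Fintype.card_eq_nat_card]
  rfl

/-- The partial zeta function of an ideal class. -/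
def classZeta (c : ClassGroup (𝓞 K)) (s : ℝ) : ℝ :=
  ∑' I : {I : (Ideal (𝓞 K))⁰ // ClassGroup.mk0 I = c},
    (Ideal.absNorm (I.1 : Ideal (𝓞 K)) : ℝ) ^ (-s)

lemma classZeta_nonneg (c : ClassGroup (𝓞 K)) (s : ℝ) : 0 ≤ classZeta c s :=
  tsum_nonneg fun _ => by positivity

lemma norm_intEmb (x : 𝓞 K) :
    mixedEmbedding.norm (intEmb x) = (Ideal.absNorm (Ideal.span {x}) : ℝ) := by
  rw [intEmb, mixedEmbedding.norm_eq_norm, Ideal.absNorm_span_singleton,
    ← Algebra.coe_norm_int, Nat.cast_natAbs, Int.cast_abs]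
  norm_cast

section Generators

variable {R : Type*} [CommRing R] [IsDedekindDomain R]

/-- `(a : Ideal R) * I` for `I` in the inverse class of `a`, as a principal ideal. -/
lemma exists_span_eq_mul {a I : (Ideal R)⁰} (h : ClassGroup.mk0 I = (ClassGroup.mk0 a)⁻¹) :
    ∃ x : R, x ≠ 0 ∧ Ideal.span {x} = (a : Ideal R) * (I : Ideal R) := by
  have h1 : ClassGroup.mk0 (a * I) = 1 := by rw [map_mul, h, mul_inv_cancel]
  have h2 : Submodule.IsPrincipal ((a : Ideal R) * (I : Ideal R)) :=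
    (ClassGroup.mk0_eq_one_iff (mul_mem a.2 I.2)).mp h1
  obtain ⟨x, hx⟩ := h2
  refine ⟨x, ?_, hx.symm⟩
  rintro rfl
  refine mul_ne_zero (nonZeroDivisors.coe_ne_zero a) (nonZeroDivisors.coe_ne_zero I) ?_
  rw [hx]
  exact Ideal.span_singleton_eq_bot.mpr rfl

lemma exists_class_span_eq_mul (a : (Ideal R)⁰) {y : R} (hy : y ∈ (a : Ideal R)) (hy0 : y ≠ 0) :
    ∃ I : (Ideal R)⁰, ClassGroup.mk0 I = (ClassGroup.mk0 a)⁻¹ ∧
      Ideal.span {y} = (a : Ideal R) * (I : Ideal R) := by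
  obtain ⟨J, hJ⟩ : (a : Ideal R) ∣ Ideal.span {y} :=
    Ideal.dvd_iff_le.mpr ((Ideal.span_singleton_le_iff_mem _).mpr hy)
  have hJ0 : J ≠ 0 := by
    rintro rfl
    rw [mul_zero] at hJ
    exact hy0 (Ideal.span_singleton_eq_bot.mp hJ)
  refine ⟨⟨J, mem_nonZeroDivisors_of_ne_zero hJ0⟩, ?_, hJ⟩
  rw [eq_inv_iff_mul_eq_one, mul_comm, ← map_mul]
  refine (ClassGroup.mk0_eq_one_iff (mul_mem a.2 (mem_nonZeroDivisors_of_ne_zero hJ0))).mpr ?_
  exact ⟨⟨y, hJ.symm⟩⟩

/-- Nonzero elements of `a` are parametrised by the ideals in the inverse class and units. -/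
lemma exists_generators (a : (Ideal R)⁰) :
    ∃ gen : {I : (Ideal R)⁰ // ClassGroup.mk0 I = (ClassGroup.mk0 a)⁻¹} → R,
      (∀ I, Ideal.span {gen I} = (a : Ideal R) * (I.1 : Ideal R)) ∧
      (∀ I, gen I ≠ 0) ∧
      (Function.Injective fun z : _ × Rˣ => (z.2 : R) * gen z.1) ∧
      (∀ I (u : Rˣ), (u : R) * gen I ∈ (a : Ideal R)) ∧
      ∀ y ∈ (a : Ideal R), y ≠ 0 → ∃ I, ∃ u : Rˣ, (u : R) * gen I = y := by
  choose gen hne hgen using
    fun I : {I : (Ideal R)⁰ // ClassGroup.mk0 I = (ClassGroup.mk0 a)⁻¹} => exists_span_eq_mul I.2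
  refine ⟨gen, hgen, hne, fun z z' h => ?_, fun I u => ?_, fun y hy hy0 => ?_⟩
  · have h1 : z.1 = z'.1 := by
      have hz := hgen z.1
      have hz' := hgen z'.1
      rw [← Ideal.span_singleton_mul_left_unit z.2.isUnit] at hz
      rw [← Ideal.span_singleton_mul_left_unit z'.2.isUnit] at hz'
      simp only at h
      rw [h, hz'] at hz
      exact Subtype.ext (Subtype.ext
        (mul_left_cancel₀ (nonZeroDivisors.coe_ne_zero a) hz).symm)
    refine Prod.ext h1 ?_
    simp only [h1] at h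
    exact Units.ext (mul_right_cancel₀ (hne _) h)
  · refine Ideal.mul_mem_left _ _ (Ideal.mul_le_left (J := (I.1 : Ideal R)) ?_)
    rw [← hgen]
    exact Ideal.mem_span_singleton_self _
  · obtain ⟨I, hI, hI'⟩ := exists_class_span_eq_mul a hy hy0
    obtain ⟨u, hu⟩ : Associated (gen ⟨I, hI⟩) y := by
      rw [← Ideal.span_singleton_eq_span_singleton, hgen, hI']
    exact ⟨⟨I, hI⟩, u, by rw [mul_comm, hu]⟩

end Generators

/-- The weighted sum over an ideal is the partial zeta function of the inverse class. -/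
lemma hasSum_classZeta (a : (Ideal (𝓞 K))⁰) {s : ℝ} (hs : 1 < s) :
    Summable (fun I : {I : (Ideal (𝓞 K))⁰ // ClassGroup.mk0 I = (ClassGroup.mk0 a)⁻¹} =>
      (Ideal.absNorm (I.1 : Ideal (𝓞 K)) : ℝ) ^ (-s)) ∧
    ∑' y : (a : Ideal (𝓞 K)), intTerm s (y : 𝓞 K) =
      (torsionOrder K : ℝ) * (Ideal.absNorm (a : Ideal (𝓞 K)) : ℝ) ^ (-s) *
        classZeta (ClassGroup.mk0 a)⁻¹ s := by
  set ι := {I : (Ideal (𝓞 K))⁰ // ClassGroup.mk0 I = (ClassGroup.mk0 a)⁻¹}
  obtain ⟨gen, hgen, hne, hinj, hmem, hsurj⟩ := exists_generators a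
  set N : ℝ := (Ideal.absNorm (a : Ideal (𝓞 K)) : ℝ)
  have hval : ∀ z : ι × (𝓞 K)ˣ, intTerm s ((z.2 : 𝓞 K) * gen z.1) =
      cutoff (z.2 • intEmb (gen z.1)) *
        (N ^ (-s) * (Ideal.absNorm (z.1.1 : Ideal (𝓞 K)) : ℝ) ^ (-s)) := fun z => by
    rw [intTerm, coneTerm, norm_intEmb, Ideal.span_singleton_mul_left_unit z.2.isUnit, hgen,
      map_mul, Nat.cast_mul, Real.mul_rpow (Nat.cast_nonneg _) (Nat.cast_nonneg _), intEmb_unit_mul]
  have hS : Summable fun y : (a : Ideal (𝓞 K)) => intTerm s (y : 𝓞 K) :=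
    (summable_intTerm hs).comp_injective Subtype.val_injective
  let φ : ι × (𝓞 K)ˣ → (a : Ideal (𝓞 K)) := fun z => ⟨(z.2 : 𝓞 K) * gen z.1, hmem z.1 z.2⟩
  have hφi : Function.Injective φ := fun z z' h => hinj (congrArg Subtype.val h)
  have hrange : ∀ y : (a : Ideal (𝓞 K)), y ∉ Set.range φ → intTerm s (y : 𝓞 K) = 0 := by
    intro y hy
    by_cases h0 : (y : 𝓞 K) = 0
    · rw [h0, intTerm, intEmb_zero, coneTerm_zero]
    obtain ⟨I, u, hu⟩ := hsurj (y : 𝓞 K) y.2 h0
    exact absurd ⟨(I, u), Subtype.ext hu⟩ hy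
  have hφ := (hφi.hasSum_iff hrange).mpr hS.hasSum
  have hfib : ∀ I : ι, HasSum (fun u : (𝓞 K)ˣ => intTerm s ((u : 𝓞 K) * gen I))
      ((torsionOrder K : ℝ) * N ^ (-s) * (Ideal.absNorm (I.1 : Ideal (𝓞 K)) : ℝ) ^ (-s)) := by
    intro I
    rw [mul_assoc]
    have h0 : mixedEmbedding.norm (intEmb (gen I)) ≠ 0 := by
      rw [norm_intEmb, Nat.cast_ne_zero]
      exact fun h => hne I (Ideal.span_singleton_eq_bot.mp (Ideal.absNorm_eq_zero_iff.mp h))
    exact ((hasSum_cutoff_unit_smul h0).mul_right _).congr_fun fun u => hval (I, u)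
  have h2 := hφ.prod_fiberwise hfib
  have hN : (torsionOrder K : ℝ) * N ^ (-s) ≠ 0 := by
    refine mul_ne_zero (Nat.cast_ne_zero.mpr (torsionOrder_pos K).ne') (ne_of_gt ?_)
    have := Ideal.absNorm_pos_of_nonZeroDivisors a
    positivity
  refine ⟨(summable_mul_left_iff hN).mp h2.summable, ?_⟩
  rw [← h2.tsum_eq, tsum_mul_left]
  rfl

lemma summable_classZeta (c : ClassGroup (𝓞 K)) {s : ℝ} (hs : 1 < s) :
    Summable fun I : {I : (Ideal (𝓞 K))⁰ // ClassGroup.mk0 I = c} =>
      (Ideal.absNorm (I.1 : Ideal (𝓞 K)) : ℝ) ^ (-s) := by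
  obtain ⟨a, ha⟩ := ClassGroup.mk0_surjective c⁻¹
  have h := (hasSum_classZeta a hs).1
  rw [ha, inv_inv] at h
  exact h

end Fermat.Agent.S14
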