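import Mathlib.NumberTheory.NumberField.DedekindZeta
import Fermat.Agent.S14.Analytic.LatticeSum

/-!
# Class-group `L`-series are bounded near `s = 1`

`idealZeta` has a simple pole and `∑_I χ(I) N(I) ^ (-s)` is bounded for `χ ≠ 1`.
-/

set_option autoImplicit false

noncomputable section

namespace Fermat.Agent.S14

open Module NumberField Filter Topology
open scoped nonZeroDivisors

variable (K : Type*) [Field K] [NumberField K]

/-- The Dirichlet series of all nonzero ideals, as a real function. -/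
def idealZeta (s : ℝ) : ℝ :=
  ∑' I : (Ideal (𝓞 K))⁰, (Ideal.absNorm (I : Ideal (𝓞 K)) : ℝ) ^ (-s)

variable {K}

lemma one_le_absNorm (I : (Ideal (𝓞 K))⁰) : (1 : ℝ) ≤ Ideal.absNorm (I : Ideal (𝓞 K)) := by
  exact_mod_cast Ideal.absNorm_pos_of_nonZeroDivisors I

lemma rpow_le_rpow_ideal (I : (Ideal (𝓞 K))⁰) {s t : ℝ} (h : s ≤ t) :
    (Ideal.absNorm (I : Ideal (𝓞 K)) : ℝ) ^ (-t) ≤
      (Ideal.absNorm (I : Ideal (𝓞 K)) : ℝ) ^ (-s) :=
  Real.rpow_le_rpow_of_exponent_le (one_le_absNorm I) (by linarith)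

lemma summable_idealZeta {s : ℝ} (hs : 1 < s) :
    Summable fun I : (Ideal (𝓞 K))⁰ => (Ideal.absNorm (I : Ideal (𝓞 K)) : ℝ) ^ (-s) := by
  rw [← (Equiv.sigmaFiberEquiv (ClassGroup.mk0 (R := 𝓞 K))).summable_iff]
  refine (summable_sigma_of_nonneg fun _ => Real.rpow_nonneg (Nat.cast_nonneg _) _).mpr ?_
  exact ⟨fun c => summable_classZeta c hs, .of_finite⟩

lemma idealZeta_eq_sum {s : ℝ} (hs : 1 < s) :
    idealZeta K s = ∑ c : ClassGroup (𝓞 K), classZeta c s := by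
  have h := (Equiv.sigmaFiberEquiv (ClassGroup.mk0 (R := 𝓞 K))).summable_iff.mpr
    (summable_idealZeta hs)
  rw [idealZeta, ← (Equiv.sigmaFiberEquiv (ClassGroup.mk0 (R := 𝓞 K))).tsum_eq]
  exact (Summable.tsum_sigma h).trans (tsum_fintype _)

lemma one_le_idealZeta {s : ℝ} (hs : 1 < s) : 1 ≤ idealZeta K s := by
  refine le_trans ?_ ((summable_idealZeta hs).le_tsum (1 : (Ideal (𝓞 K))⁰) fun _ _ => by positivity)
  simp

lemma ofReal_idealZeta {s : ℝ} (hs : 1 < s) : (idealZeta K s : ℂ) = dedekindZeta K s := by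
  set N : (Ideal (𝓞 K))⁰ → ℕ := fun I => Ideal.absNorm (I : Ideal (𝓞 K))
  have hsum := (Complex.hasSum_ofReal.mpr (summable_idealZeta (K := K) hs).hasSum).tsum_fiberwise N
  rw [idealZeta, ← hsum.tsum_eq, dedekindZeta, LSeries]
  refine tsum_congr fun n => ?_
  rcases eq_or_ne n 0 with rfl | hn
  · rw [LSeries.term_zero]
    have : IsEmpty (N ⁻¹' {0}) := ⟨fun I => (Ideal.absNorm_pos_of_nonZeroDivisors I.1).ne' I.2⟩
    exact tsum_empty
  let e : N ⁻¹' {n} ≃ {I : Ideal (𝓞 K) // Ideal.absNorm I = n} :=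
    { toFun := fun I => ⟨I.1, I.2⟩
      invFun := fun I => ⟨⟨I.1, mem_nonZeroDivisors_of_ne_zero (by
        rintro h
        exact hn (by rw [← I.2, h]; exact Ideal.absNorm_bot))⟩, I.2⟩
      left_inv := fun I => rfl
      right_inv := fun I => rfl }
  have : Finite {I : Ideal (𝓞 K) // Ideal.absNorm I = n} :=
    Set.Finite.to_subtype (Ideal.finite_setOfPred_absNorm_eq (S := 𝓞 K) n)
  have : Finite (N ⁻¹' {n}) := Finite.of_equiv _ e.symm
  have := Fintype.ofFinite (N ⁻¹' {n})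
  rw [LSeries.term_of_ne_zero hn, tsum_fintype,
    Finset.sum_congr rfl (g := fun _ => (((n : ℝ) ^ (-s) : ℝ) : ℂ)) (fun I _ => by
      rw [show Ideal.absNorm ((I : (Ideal (𝓞 K))⁰) : Ideal (𝓞 K)) = n from I.2]),
    Finset.sum_const, Finset.card_univ, ← Nat.card_eq_fintype_card, Nat.card_congr e, nsmul_eq_mul,
    Complex.ofReal_cpow (Nat.cast_nonneg _), Complex.ofReal_neg, Complex.ofReal_natCast,
    Complex.cpow_neg, div_eq_mul_inv]

/-- `idealZeta` has a simple pole at `1`. -/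
theorem exists_idealZeta_bounds :
    ∃ c C : ℝ, 0 < c ∧ ∀ s : ℝ, 1 < s → s ≤ 2 →
      c ≤ (s - 1) * idealZeta K s ∧ (s - 1) * idealZeta K s ≤ C := by
  set r := dedekindZeta_residue K
  have hr : 0 < r := dedekindZeta_residue_pos K
  have ht : Tendsto (fun s : ℝ => (((s - 1) * idealZeta K s : ℝ) : ℂ)) (𝓝[>] 1) (𝓝 (r : ℂ)) := by
    refine (tendsto_sub_one_mul_dedekindZeta_nhdsGT K).congr' ?_
    filter_upwards [self_mem_nhdsWithin] with s hs
    rw [Complex.ofReal_mul, ofReal_idealZeta hs, Complex.ofReal_sub, Complex.ofReal_one]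
  have ht' : Tendsto (fun s : ℝ => (s - 1) * idealZeta K s) (𝓝[>] 1) (𝓝 r) :=
    Complex.continuous_re.tendsto _ |>.comp ht
  obtain ⟨δ, hδ, hev⟩ : ∃ δ : ℝ, 0 < δ ∧ ∀ s : ℝ, 1 < s → s < 1 + δ →
      r / 2 ≤ (s - 1) * idealZeta K s ∧ (s - 1) * idealZeta K s ≤ 2 * r := by
    have h := (ht'.eventually (Ioo_mem_nhds (show r / 2 < r by linarith) (show r < 2 * r by linarith)))
    obtain ⟨u, hu, hsub⟩ := mem_nhdsGT_iff_exists_Ioo_subset.mp h
    exact ⟨u - 1, by simpa using hu, fun s h1 h2 =>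
      ⟨(hsub ⟨h1, by linarith⟩).1.le, (hsub ⟨h1, by linarith⟩).2.le⟩⟩
  refine ⟨min (r / 2) δ, max (2 * r) (idealZeta K (1 + δ)), lt_min (by linarith) hδ,
    fun s h1 h2 => ?_⟩
  rcases lt_or_ge s (1 + δ) with h | h
  · exact ⟨(min_le_left _ _).trans (hev s h1 h).1, (hev s h1 h).2.trans (le_max_left _ _)⟩
  · have hle : idealZeta K s ≤ idealZeta K (1 + δ) := (summable_idealZeta h1).tsum_le_tsum
      (fun I => rpow_le_rpow_ideal I h) (summable_idealZeta (by linarith))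
    have h0 := one_le_idealZeta (K := K) h1
    refine ⟨(min_le_right _ _).trans ?_, le_trans ?_ (le_max_right _ _)⟩
    · nlinarith
    · nlinarith

lemma classZeta_le_idealZeta (c : ClassGroup (𝓞 K)) {s : ℝ} (hs : 1 < s) :
    classZeta c s ≤ idealZeta K s := by
  rw [idealZeta_eq_sum hs]
  exact Finset.single_le_sum (fun c _ => classZeta_nonneg c s) (Finset.mem_univ c)

/-- All ideal classes have the same partial zeta function up to a bounded error. -/
theorem exists_abs_classZeta_sub_le (c : ClassGroup (𝓞 K)) :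
    ∃ C : ℝ, ∀ s : ℝ, 1 < s → s ≤ 2 → |classZeta c s - classZeta (1 : ClassGroup (𝓞 K)) s| ≤ C := by
  obtain ⟨a, ha⟩ := ClassGroup.mk0_surjective c⁻¹
  obtain ⟨C₁, h₁⟩ := exists_abs_tsum_sub_le (a : Ideal (𝓞 K)) (nonZeroDivisors.coe_ne_zero a)
  obtain ⟨C₂, h₂⟩ := exists_abs_tsum_sub_le ((1 : (Ideal (𝓞 K))⁰) : Ideal (𝓞 K))
    (nonZeroDivisors.coe_ne_zero _)
  obtain ⟨_, C₃, -, h₃⟩ := exists_idealZeta_bounds (K := K)
  set w : ℝ := (Units.torsionOrder K : ℝ)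
  have hw : 1 ≤ w := Nat.one_le_cast.mpr (Units.torsionOrder_pos K)
  set n : ℝ := (Ideal.absNorm (a : Ideal (𝓞 K)) : ℝ)
  have hn : 1 ≤ n := one_le_absNorm a
  refine ⟨C₁ + C₂ + C₃ * Real.log n, fun s hs1 hs2 => ?_⟩
  have e₁ := h₁ s hs1 hs2
  have e₂ := h₂ s hs1 hs2
  rw [(hasSum_classZeta a hs1).2, ha, inv_inv] at e₁
  rw [(hasSum_classZeta 1 hs1).2, map_one, inv_one] at e₂
  simp only [OneMemClass.coe_one, map_one, Nat.cast_one, Real.one_rpow, mul_one, one_mul] at e₂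
  set S := ∑' x : 𝓞 K, intTerm s x
  have hpow : n * (w * n ^ (-s) * classZeta c s) = w * (n ^ (1 - s) * classZeta c s) := by
    rw [sub_eq_add_neg, Real.rpow_add (by linarith), Real.rpow_one]
    ring
  rw [hpow] at e₁
  have hdiff : |n ^ (1 - s) * classZeta c s - classZeta (1 : ClassGroup (𝓞 K)) s| ≤ C₁ + C₂ := by
    have h : |w * (n ^ (1 - s) * classZeta c s - classZeta (1 : ClassGroup (𝓞 K)) s)| ≤ C₁ + C₂ := by
      have := abs_le.mp e₁
      have := abs_le.mp e₂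
      rw [mul_sub, abs_le]
      constructor <;> linarith
    rw [abs_mul, abs_of_pos (by linarith : (0 : ℝ) < w)] at h
    exact (le_mul_of_one_le_left (abs_nonneg _) hw).trans h
  have hlast : |(1 - n ^ (1 - s)) * classZeta c s| ≤ C₃ * Real.log n := by
    have hz := classZeta_nonneg c s
    have h1 : n ^ (1 - s) ≤ 1 := Real.rpow_le_one_of_one_le_of_nonpos hn (by linarith)
    have h2 : 1 - n ^ (1 - s) ≤ (s - 1) * Real.log n := by
      have := Real.add_one_le_exp (Real.log n * (1 - s))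
      rw [← Real.rpow_def_of_pos (by linarith)] at this
      linarith
    have h3 : (s - 1) * classZeta c s ≤ C₃ :=
      le_trans (mul_le_mul_of_nonneg_left (classZeta_le_idealZeta c hs1) (by linarith))
        (h₃ s hs1 hs2).2
    rw [abs_mul, abs_of_nonneg (by linarith : 0 ≤ 1 - n ^ (1 - s)), abs_of_nonneg hz]
    calc (1 - n ^ (1 - s)) * classZeta c s ≤ (s - 1) * Real.log n * classZeta c s :=
          mul_le_mul_of_nonneg_right h2 hz
      _ = (s - 1) * classZeta c s * Real.log n := by ring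
      _ ≤ _ := mul_le_mul_of_nonneg_right h3 (Real.log_nonneg hn)
  calc |classZeta c s - classZeta (1 : ClassGroup (𝓞 K)) s|
      = |(n ^ (1 - s) * classZeta c s - classZeta (1 : ClassGroup (𝓞 K)) s) + (1 - n ^ (1 - s)) * classZeta c s| := by
        congr 1; ring
    _ ≤ _ := (abs_add_le _ _).trans (add_le_add hdiff hlast)

/-- The summand of a class group `L`-series. -/
def lTerm (χ : ClassGroup (𝓞 K) →* ℂˣ) (s : ℝ) (I : (Ideal (𝓞 K))⁰) : ℂ :=
  (χ (ClassGroup.mk0 I) : ℂ) * (((Ideal.absNorm (I : Ideal (𝓞 K)) : ℝ) ^ (-s) : ℝ) : ℂ)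

lemma norm_char_eq_one {G : Type*} [Group G] [Finite G] (χ : G →* ℂˣ) (g : G) :
    ‖(χ g : ℂ)‖ = 1 := by
  refine Complex.norm_eq_one_of_pow_eq_one (n := orderOf g) ?_ (orderOf_pos g).ne'
  rw [← Units.val_pow_eq_pow_val, ← map_pow, pow_orderOf_eq_one, map_one, Units.val_one]

lemma norm_lTerm (χ : ClassGroup (𝓞 K) →* ℂˣ) (s : ℝ) (I : (Ideal (𝓞 K))⁰) :
    ‖lTerm χ s I‖ = (Ideal.absNorm (I : Ideal (𝓞 K)) : ℝ) ^ (-s) := by
  rw [lTerm, norm_mul, norm_char_eq_one, one_mul, Complex.norm_real,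
    Real.norm_of_nonneg (by positivity)]

/-- A nontrivial class group `L`-series is bounded on `1 < s ≤ 2`. -/
theorem exists_norm_tsum_lTerm_le (χ : ClassGroup (𝓞 K) →* ℂˣ) (hχ : χ ≠ 1) :
    ∃ C : ℝ, ∀ s : ℝ, 1 < s → s ≤ 2 → ‖∑' I, lTerm χ s I‖ ≤ C := by
  choose C hC using exists_abs_classZeta_sub_le (K := K)
  refine ⟨∑ c, C c, fun s h1 h2 => ?_⟩
  have hsum : Summable (lTerm χ s) :=
    Summable.of_norm (by simpa only [norm_lTerm] using summable_idealZeta h1)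
  have hfib : ∀ c, ∑' I : {I : (Ideal (𝓞 K))⁰ // ClassGroup.mk0 I = c}, lTerm χ s I.1 =
      (χ c : ℂ) * (classZeta c s : ℂ) := fun c => by
    rw [classZeta, Complex.ofReal_tsum, ← tsum_mul_left]
    exact tsum_congr fun I => by rw [lTerm, I.2]
  obtain ⟨c₀, hc₀⟩ : ∃ c₀, χ c₀ ≠ 1 := by
    by_contra h
    push Not at h
    exact hχ (MonoidHom.ext h)
  have hzero : ∑ c, (χ c : ℂ) = 0 := by
    have h : ∑ c, (χ c : ℂ) = (χ c₀ : ℂ) * ∑ c, (χ c : ℂ) := by
      rw [Finset.mul_sum, ← Equiv.sum_comp (Equiv.mulLeft c₀)]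
      simp
    have h' : ((χ c₀ : ℂ) - 1) * ∑ c, (χ c : ℂ) = 0 := by rw [sub_mul, ← h, one_mul, sub_self]
    exact (mul_eq_zero.mp h').resolve_left (sub_ne_zero.mpr (by simpa using hc₀))
  have he := (Equiv.sigmaFiberEquiv (ClassGroup.mk0 (R := 𝓞 K))).summable_iff.mpr hsum
  rw [← (Equiv.sigmaFiberEquiv (ClassGroup.mk0 (R := 𝓞 K))).tsum_eq]
  rw [Summable.tsum_sigma (f := fun p => lTerm χ s ((Equiv.sigmaFiberEquiv (ClassGroup.mk0 (R := 𝓞 K))) p)) he,
    tsum_fintype]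
  simp only [Equiv.sigmaFiberEquiv_apply, hfib]
  rw [← sub_zero (∑ c, (χ c : ℂ) * (classZeta c s : ℂ)), ← mul_zero (classZeta (1 : ClassGroup (𝓞 K)) s : ℂ), ← hzero,
    Finset.mul_sum, ← Finset.sum_sub_distrib]
  refine (norm_sum_le _ _).trans (Finset.sum_le_sum fun c _ => ?_)
  rw [mul_comm (classZeta (1 : ClassGroup (𝓞 K)) s : ℂ), ← mul_sub, norm_mul, norm_char_eq_one, one_mul,
    ← Complex.ofReal_sub, Complex.norm_real]
  exact hC c s h1 h2

end Fermat.Agent.S14
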