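import Mathlib.RingTheory.DedekindDomain.Factorization
import Mathlib.Analysis.SpecialFunctions.Complex.LogBounds
import Mathlib.GroupTheory.FiniteAbelian.Duality
import Mathlib.RingTheory.RootsOfUnity.AlgebraicallyClosed
import Mathlib.Analysis.Normed.Group.Tannery
import Mathlib.Analysis.Complex.Polynomial.Basic
import Fermat.Agent.S14.Analytic.ClassBound

/-!
# Sums over prime ideals near `s = 1`

The sum over all primes is `log (1 / (s - 1)) + O(1)`; the sum over primes whose classes lie in the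
kernel of a homomorphism is at most `log (1 / (s - 1)) / #range + O(1)`.
-/

set_option autoImplicit false

noncomputable section

namespace Fermat.Agent.S14

open Module NumberField Filter Topology IsDedekindDomain
open scoped nonZeroDivisors

section Product

variable {R : Type*} [CommRing R] [IsDedekindDomain R]

/-- A prime as a nonzero ideal. -/
def primeIdeal (P : HeightOneSpectrum R) : (Ideal R)⁰ :=
  ⟨P.asIdeal, mem_nonZeroDivisors_of_ne_zero P.ne_bot⟩

lemma primeIdeal_injective : Function.Injective (primeIdeal (R := R)) := fun _ _ h =>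
  HeightOneSpectrum.ext (congrArg (fun I : (Ideal R)⁰ => (I : Ideal R)) h)

/-- Ideals all of whose prime divisors lie in `T`. -/
def supportedOn (T : Finset (HeightOneSpectrum R)) : Set (Ideal R)⁰ :=
  {I | ∀ P : HeightOneSpectrum R, P.asIdeal ∣ (I : Ideal R) → P ∈ T}

lemma supportedOn_empty :
    supportedOn (∅ : Finset (HeightOneSpectrum R)) = {(1 : (Ideal R)⁰)} := by
  ext I
  constructor
  · intro h
    by_contra hne
    have hI : (I : Ideal R) ≠ ⊤ := fun h' => hne (Subtype.ext (by rw [h']; exact Ideal.one_eq_top.symm))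
    obtain ⟨M, hM, hle⟩ := Ideal.exists_le_maximal _ hI
    have hM0 : M ≠ ⊥ := fun h' => nonZeroDivisors.coe_ne_zero I (le_bot_iff.mp (h' ▸ hle))
    exact absurd (h ⟨M, hM.isPrime, hM0⟩ (Ideal.dvd_iff_le.mpr hle)) (Finset.notMem_empty _)
  · intro hI P hP
    rw [Set.mem_singleton_iff] at hI
    subst hI
    exact absurd hP fun h => P.isPrime.ne_top (Ideal.isUnit_iff.mp (isUnit_of_dvd_one (by simpa using h)))

lemma mul_mem_supportedOn_iff [DecidableEq (HeightOneSpectrum R)]
    {T : Finset (HeightOneSpectrum R)} {P : HeightOneSpectrum R}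
    (hP : P ∈ T) (J : (Ideal R)⁰) : primeIdeal P * J ∈ supportedOn T ↔ J ∈ supportedOn T := by
  refine ⟨fun h Q hQ => h Q ?_, fun h Q hQ => ?_⟩
  · exact dvd_mul_of_dvd_right hQ _
  · rcases Q.prime.dvd_or_dvd (show Q.asIdeal ∣ P.asIdeal * (J : Ideal R) from hQ) with h' | h'
    · have : Q = P := HeightOneSpectrum.ext
        (P.isMaximal.eq_of_le Q.isPrime.ne_top (Ideal.dvd_iff_le.mp h')).symm
      rwa [this]
    · exact h Q h'

variable (F : (Ideal R)⁰ →* ℂ)

open scoped Classical in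
lemma tsum_supportedOn (hF : Summable fun I => ‖F I‖) (hlt : ∀ P, ‖F (primeIdeal P)‖ < 1)
    (T : Finset (HeightOneSpectrum R)) :
    ∑' I, (supportedOn T).indicator F I = ∏ P ∈ T, (1 - F (primeIdeal P))⁻¹ := by
  induction T using Finset.induction with
  | empty => rw [supportedOn_empty, tsum_eq_single 1 fun I hI => by simp [hI]]; simp
  | insert P T hP ih =>
    set G := (supportedOn (insert P T)).indicator (F : (Ideal R)⁰ → ℂ)
    have hsum : ∀ S : Set (Ideal R)⁰, Summable (S.indicator (F : (Ideal R)⁰ → ℂ)) := fun S =>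
      (Summable.of_norm hF).indicator S
    set H := (Set.range fun J => primeIdeal P * J).indicator G
    have hsplit : ∀ I, G I = (supportedOn T).indicator (F : (Ideal R)⁰ → ℂ) I + H I := by
      intro I
      by_cases hr : I ∈ Set.range fun J => primeIdeal P * J
      · have : I ∉ supportedOn T := by
          obtain ⟨J, rfl⟩ := hr
          exact fun h => hP (h P (dvd_mul_right _ _))
        simp only [H, Set.indicator_of_mem hr, Set.indicator_of_notMem this, zero_add]
      · simp only [H, Set.indicator_of_notMem hr, add_zero, G]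
        have hnd : ¬ P.asIdeal ∣ (I : Ideal R) := by
          rintro ⟨J, hJ⟩
          have hJ0 : J ≠ 0 := fun h => nonZeroDivisors.coe_ne_zero I (by rw [hJ, h, mul_zero])
          exact hr ⟨⟨J, mem_nonZeroDivisors_of_ne_zero hJ0⟩, Subtype.ext hJ.symm⟩
        have hiff : I ∈ supportedOn (insert P T) ↔ I ∈ supportedOn T :=
          ⟨fun h Q hQ => (Finset.mem_insert.mp (h Q hQ)).resolve_left fun h' => hnd (h' ▸ hQ),
            fun h Q hQ => Finset.mem_insert_of_mem (h Q hQ)⟩
        by_cases hI : I ∈ supportedOn T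
        · rw [Set.indicator_of_mem hI, Set.indicator_of_mem (hiff.mpr hI)]
        · rw [Set.indicator_of_notMem hI, Set.indicator_of_notMem (mt hiff.mp hI)]
    have hinj : Function.Injective fun J => primeIdeal P * J := fun A B h =>
      Subtype.ext (mul_left_cancel₀ P.ne_bot (congrArg (fun I : (Ideal R)⁰ => (I : Ideal R)) h))
    have hH : ∑' I, H I = F (primeIdeal P) * ∑' I, G I := by
      rw [← hinj.tsum_eq (Set.support_indicator_subset), ← tsum_mul_left]
      refine tsum_congr fun J => ?_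
      simp only [Set.indicator_of_mem (Set.mem_range_self J), G]
      have hiff := mul_mem_supportedOn_iff (Finset.mem_insert_self P T) J
      by_cases hJ : J ∈ supportedOn (insert P T)
      · rw [Set.indicator_of_mem hJ, Set.indicator_of_mem (hiff.mpr hJ), map_mul]
      · rw [Set.indicator_of_notMem hJ, Set.indicator_of_notMem (mt hiff.mp hJ), mul_zero]
    have heq : ∑' I, G I = ∑' I, (supportedOn T).indicator (F : (Ideal R)⁰ → ℂ) I +
        F (primeIdeal P) * ∑' I, G I := by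
      rw [← hH, ← (hsum _).tsum_add ((hsum _).indicator _)]
      exact tsum_congr hsplit
    have hne : 1 - F (primeIdeal P) ≠ 0 := sub_ne_zero.mpr fun h => by
      have := hlt P
      rw [← h, norm_one] at this
      exact lt_irrefl _ this
    rw [ih] at heq
    rw [Finset.prod_insert hP, eq_inv_mul_iff_mul_eq₀ hne]
    linear_combination heq

/-- Euler product over the finite sets of primes. -/
lemma tendsto_euler_product (hF : Summable fun I => ‖F I‖)
    (hlt : ∀ P, ‖F (primeIdeal P)‖ < 1) :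
    Tendsto (fun T : Finset (HeightOneSpectrum R) => ∏ P ∈ T, (1 - F (primeIdeal P))⁻¹) atTop
      (𝓝 (∑' I, F I)) := by
  simp only [← tsum_supportedOn F hF hlt]
  refine tendsto_tsum_of_dominated_convergence hF (fun I => ?_)
    (Eventually.of_forall fun T I => norm_indicator_le_norm_self _ _)
  have hfin := Ideal.finite_factors (nonZeroDivisors.coe_ne_zero I)
  refine tendsto_nhds_of_eventually_eq ?_
  filter_upwards [eventually_ge_atTop hfin.toFinset] with T hT
  have hI : I ∈ supportedOn T := fun P hP => hT (hfin.mem_toFinset.mpr hP)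
  exact Set.indicator_of_mem hI _

end Product

variable {K : Type*} [Field K] [NumberField K]

/-- The norm of a prime. -/
def primeNorm (P : HeightOneSpectrum (𝓞 K)) : ℝ := (Ideal.absNorm P.asIdeal : ℝ)

lemma two_le_primeNorm (P : HeightOneSpectrum (𝓞 K)) : 2 ≤ primeNorm P := by
  have h1 : Ideal.absNorm P.asIdeal ≠ 1 := mt Ideal.absNorm_eq_one_iff.mp P.isPrime.ne_top
  have h0 : Ideal.absNorm P.asIdeal ≠ 0 := mt Ideal.absNorm_eq_zero_iff.mp P.ne_bot
  have : 2 ≤ Ideal.absNorm P.asIdeal := by omega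
  exact Nat.ofNat_le_cast.mpr this

lemma primeNorm_pos (P : HeightOneSpectrum (𝓞 K)) : 0 < primeNorm P := by
  linarith [two_le_primeNorm P]

lemma primeNorm_rpow_le_half (P : HeightOneSpectrum (𝓞 K)) {s : ℝ} (hs : 1 < s) :
    primeNorm P ^ (-s) ≤ 1 / 2 := by
  refine (Real.rpow_le_rpow_of_exponent_le (by linarith [two_le_primeNorm P])
    (show -s ≤ -1 by linarith)).trans ?_
  rw [Real.rpow_neg_one, one_div]
  exact inv_anti₀ two_pos (two_le_primeNorm P)

lemma summable_primeNorm {s : ℝ} (hs : 1 < s) :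
    Summable fun P : HeightOneSpectrum (𝓞 K) => primeNorm P ^ (-s) :=
  Summable.comp_injective (i := primeIdeal)
    (f := fun I : (Ideal (𝓞 K))⁰ => (Ideal.absNorm (I : Ideal (𝓞 K)) : ℝ) ^ (-s))
    (summable_idealZeta hs) primeIdeal_injective

/-- `lTerm` as a homomorphism. -/
def lHom (χ : ClassGroup (𝓞 K) →* ℂˣ) (s : ℝ) : (Ideal (𝓞 K))⁰ →* ℂ where
  toFun := lTerm χ s
  map_one' := by simp [lTerm]
  map_mul' I J := by
    simp only [lTerm, map_mul, Submonoid.coe_mul, Units.val_mul, Nat.cast_mul,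
      Real.mul_rpow (Nat.cast_nonneg _) (Nat.cast_nonneg _), Complex.ofReal_mul]
    ring

/-- The character sum over primes. -/
def charPrimeSum (χ : ClassGroup (𝓞 K) →* ℂˣ) (s : ℝ) : ℝ :=
  ∑' P : HeightOneSpectrum (𝓞 K), (lTerm χ s (primeIdeal P)).re

lemma norm_lTerm_prime (χ : ClassGroup (𝓞 K) →* ℂˣ) (s : ℝ) (P : HeightOneSpectrum (𝓞 K)) :
    ‖lTerm χ s (primeIdeal P)‖ = primeNorm P ^ (-s) := norm_lTerm χ s _

lemma summable_charPrime (χ : ClassGroup (𝓞 K) →* ℂˣ) {s : ℝ} (hs : 1 < s) :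
    Summable fun P : HeightOneSpectrum (𝓞 K) => (lTerm χ s (primeIdeal P)).re :=
  Summable.of_norm_bounded (summable_primeNorm hs) fun P => by
    rw [Real.norm_eq_abs, ← norm_lTerm_prime χ s P]
    exact Complex.abs_re_le_norm _

lemma abs_log_norm_one_sub_add_re_le {z : ℂ} (hz : ‖z‖ ≤ 1 / 2) :
    |Real.log ‖1 - z‖ + z.re| ≤ ‖z‖ ^ 2 := by
  have h := Complex.norm_log_one_add_sub_self_le (z := -z) (by rw [norm_neg]; linarith)
  rw [norm_neg, sub_neg_eq_add, ← sub_eq_add_neg] at h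
  have h2 : (Complex.log (1 - z) + z).re = Real.log ‖1 - z‖ + z.re := by
    rw [Complex.add_re, Complex.log_re]
  have h3 := h2 ▸ Complex.abs_re_le_norm (Complex.log (1 - z) + z)
  refine h3.trans (h.trans ?_)
  have h4 : (1 - ‖z‖)⁻¹ ≤ 2 := (inv_le_comm₀ (by linarith) two_pos).mpr (by norm_num; linarith)
  calc ‖z‖ ^ 2 * (1 - ‖z‖)⁻¹ / 2 ≤ ‖z‖ ^ 2 * 2 / 2 := by gcongr
    _ = _ := by ring

/-- Finite Euler products against prime sums. -/
lemma exists_abs_log_prod_sub_le :
    ∃ C : ℝ, ∀ (χ : ClassGroup (𝓞 K) →* ℂˣ) (s : ℝ), 1 < s → ∀ T : Finset (HeightOneSpectrum (𝓞 K)),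
      0 < ‖∏ P ∈ T, (1 - lHom χ s (primeIdeal P))⁻¹‖ ∧
      |Real.log ‖∏ P ∈ T, (1 - lHom χ s (primeIdeal P))⁻¹‖ -
        ∑ P ∈ T, (lTerm χ s (primeIdeal P)).re| ≤ C := by
  refine ⟨∑' P : HeightOneSpectrum (𝓞 K), primeNorm P ^ (-(2 : ℝ)), fun χ s hs T => ?_⟩
  have hz : ∀ P, ‖lTerm χ s (primeIdeal P)‖ ≤ 1 / 2 := fun P => by
    rw [norm_lTerm_prime]; exact primeNorm_rpow_le_half P hs
  have hpos : ∀ P, 0 < ‖1 - lTerm χ s (primeIdeal P)‖ := fun P => by
    have := norm_sub_norm_le (1 : ℂ) (lTerm χ s (primeIdeal P))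
    rw [norm_one] at this
    linarith [hz P]
  have hnorm : ‖∏ P ∈ T, (1 - lHom χ s (primeIdeal P))⁻¹‖ =
      ∏ P ∈ T, ‖1 - lTerm χ s (primeIdeal P)‖⁻¹ := by
    rw [norm_prod]
    exact Finset.prod_congr rfl fun P _ => norm_inv _
  rw [hnorm]
  refine ⟨Finset.prod_pos fun P _ => inv_pos.mpr (hpos P), ?_⟩
  rw [Real.log_prod (fun P _ => (inv_pos.mpr (hpos P)).ne'), ← Finset.sum_sub_distrib]
  refine (Finset.abs_sum_le_sum_abs _ _).trans (le_trans (Finset.sum_le_sum fun P _ => ?_)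
    ((summable_primeNorm (by norm_num)).sum_le_tsum T fun P _ => (Real.rpow_nonneg (primeNorm_pos P).le _)))
  rw [Real.log_inv, ← neg_add', abs_neg]
  refine (abs_log_norm_one_sub_add_re_le (hz P)).trans ?_
  rw [norm_lTerm_prime, ← Real.rpow_natCast (primeNorm P ^ (-s)), ← Real.rpow_mul (primeNorm_pos P).le]
  exact Real.rpow_le_rpow_of_exponent_le (by linarith [two_le_primeNorm P]) (by push_cast; linarith)

lemma tendsto_lHom (χ : ClassGroup (𝓞 K) →* ℂˣ) {s : ℝ} (hs : 1 < s) :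
    Tendsto (fun T : Finset (HeightOneSpectrum (𝓞 K)) =>
      ∏ P ∈ T, (1 - lHom χ s (primeIdeal P))⁻¹) atTop (𝓝 (∑' I, lTerm χ s I)) :=
  tendsto_euler_product (lHom χ s) (by
      simp only [lHom, MonoidHom.coe_mk, OneHom.coe_mk, norm_lTerm]
      exact summable_idealZeta hs) fun P => by
    show ‖lTerm χ s (primeIdeal P)‖ < 1
    rw [norm_lTerm_prime]
    linarith [primeNorm_rpow_le_half P hs]

/-- A nontrivial character sum over primes is bounded above. -/
theorem exists_charPrimeSum_le (χ : ClassGroup (𝓞 K) →* ℂˣ) (hχ : χ ≠ 1) :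
    ∃ C : ℝ, ∀ s : ℝ, 1 < s → s ≤ 2 → charPrimeSum χ s ≤ C := by
  obtain ⟨C₁, h₁⟩ := exists_norm_tsum_lTerm_le χ hχ
  obtain ⟨C₂, h₂⟩ := exists_abs_log_prod_sub_le (K := K)
  refine ⟨C₁ + C₂, fun s hs1 hs2 => le_of_tendsto (summable_charPrime χ hs1).hasSum ?_⟩
  filter_upwards [(tendsto_lHom χ hs1).norm.eventually
    (eventually_lt_nhds (show ‖∑' I, lTerm χ s I‖ < C₁ + 1 by linarith [h₁ s hs1 hs2]))] with T hT
  obtain ⟨hpos, habs⟩ := h₂ χ s hs1 T
  have := Real.log_le_sub_one_of_pos hpos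
  linarith [(abs_le.mp habs).1]

lemma lTerm_one_re (s : ℝ) (P : HeightOneSpectrum (𝓞 K)) :
    (lTerm (1 : ClassGroup (𝓞 K) →* ℂˣ) s (primeIdeal P)).re = primeNorm P ^ (-s) := by
  rw [lTerm, MonoidHom.one_apply, Units.val_one, one_mul, Complex.ofReal_re]
  rfl

/-- The trivial sum is `log (1 / (s - 1)) + O(1)`. -/
theorem exists_abs_primeSum_sub_log_le :
    ∃ C : ℝ, ∀ s : ℝ, 1 < s → s ≤ 2 →
      |(∑' P : HeightOneSpectrum (𝓞 K), primeNorm P ^ (-s)) - Real.log (1 / (s - 1))| ≤ C := by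
  obtain ⟨c, C₁, hc, h₁⟩ := exists_idealZeta_bounds (K := K)
  obtain ⟨C₂, h₂⟩ := exists_abs_log_prod_sub_le (K := K)
  refine ⟨C₂ + |Real.log c| + |Real.log C₁|, fun s hs1 hs2 => ?_⟩
  obtain ⟨hlo, hhi⟩ := h₁ s hs1 hs2
  have hζ := one_le_idealZeta (K := K) hs1
  have hL : ∑' I, lTerm (1 : ClassGroup (𝓞 K) →* ℂˣ) s I = (idealZeta K s : ℂ) := by
    rw [idealZeta, Complex.ofReal_tsum]
    exact tsum_congr fun I => by rw [lTerm, MonoidHom.one_apply, Units.val_one, one_mul]
  have h := tendsto_lHom (K := K) 1 hs1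
  rw [hL] at h
  have h' := h.norm
  rw [Complex.norm_real, Real.norm_of_nonneg (by linarith)] at h'
  have hlog := ((Real.continuousAt_log (show idealZeta K s ≠ 0 by linarith)).tendsto.comp h')
  have hsum := (summable_charPrime (1 : ClassGroup (𝓞 K) →* ℂˣ) hs1).hasSum
  have hd : |Real.log (idealZeta K s) - ∑' P : HeightOneSpectrum (𝓞 K), primeNorm P ^ (-s)| ≤ C₂ := by
    have := (hlog.sub hsum).abs
    simp only [lTerm_one_re] at this
    refine le_of_tendsto this (Eventually.of_forall fun T => ?_)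
    simpa [lTerm_one_re] using (h₂ 1 s hs1 T).2
  have hs : 0 < s - 1 := by linarith
  have hb : |Real.log ((s - 1) * idealZeta K s)| ≤ |Real.log c| + |Real.log C₁| := by
    have e1 := Real.log_le_log hc hlo
    have e2 := Real.log_le_log (hc.trans_le hlo) hhi
    rw [abs_le]
    constructor <;>
      linarith [neg_abs_le (Real.log c), abs_nonneg (Real.log C₁), le_abs_self (Real.log C₁),
        abs_nonneg (Real.log c)]
  rw [Real.log_mul hs.ne' (by linarith)] at hb
  rw [one_div, Real.log_inv]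
  have := abs_le.mp hd
  have := abs_le.mp hb
  rw [abs_le]
  constructor <;> linarith

/-- The partial prime sum over a set of primes. -/
def primeSum (S : Set (HeightOneSpectrum (𝓞 K))) (s : ℝ) : ℝ :=
  ∑' P, S.indicator (fun P => primeNorm P ^ (-s)) P

/-- Primes whose class lies in the kernel of a homomorphism. -/
theorem exists_primeSum_ker_le {A : Type*} [CommGroup A] (Φ : ClassGroup (𝓞 K) →* A) :
    ∃ C : ℝ, ∀ s : ℝ, 1 < s → s ≤ 2 →
      (Nat.card Φ.range : ℝ) * primeSum {P | Φ (ClassGroup.mk0 (primeIdeal P)) = 1} s ≤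
        Real.log (1 / (s - 1)) + C := by
  classical
  set G := ClassGroup (𝓞 K) ⧸ Φ.ker
  have hcard : Nat.card G = Nat.card Φ.range :=
    Nat.card_congr (QuotientGroup.quotientKerEquivRange Φ).toEquiv
  have : NeZero (Monoid.exponent G) := ⟨Monoid.exponent_ne_zero_of_finite⟩
  have : Finite (G →* ℂˣ) := CommGroup.monoidHom_mulEquiv_of_hasEnoughRootsOfUnity G ℂ |>.some.toEquiv.finite_iff.mpr inferInstance
  have := Fintype.ofFinite (G →* ℂˣ)
  have hdual : Fintype.card (G →* ℂˣ) = Nat.card G := by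
    rw [← Nat.card_eq_fintype_card, CommGroup.card_monoidHom_of_hasEnoughRootsOfUnity]
  let lift : (G →* ℂˣ) → (ClassGroup (𝓞 K) →* ℂˣ) := fun χ => χ.comp (QuotientGroup.mk' _)
  have hlift : ∀ χ, χ ≠ 1 → lift χ ≠ 1 := fun χ h h' => h (MonoidHom.ext fun g => by
    obtain ⟨a, rfl⟩ := QuotientGroup.mk'_surjective _ g
    exact DFunLike.congr_fun h' a)
  choose C hC using fun χ : {χ : G →* ℂˣ // χ ≠ 1} => exists_charPrimeSum_le (lift χ.1) (hlift χ.1 χ.2)
  obtain ⟨C₀, hC₀⟩ := exists_abs_primeSum_sub_log_le (K := K)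
  refine ⟨C₀ + ∑ χ, C χ, fun s hs1 hs2 => ?_⟩
  have horth : ∀ g : G, ∑ χ : G →* ℂˣ, (χ g : ℂ) = if g = 1 then (Nat.card G : ℂ) else 0 := by
    intro g
    split_ifs with hg
    · subst hg; simp [hdual]
    · obtain ⟨χ₀, hχ₀⟩ := CommGroup.exists_apply_ne_one_of_hasEnoughRootsOfUnity G ℂ hg
      have h : ∑ χ : G →* ℂˣ, (χ g : ℂ) = (χ₀ g : ℂ) * ∑ χ : G →* ℂˣ, (χ g : ℂ) := by
        rw [Finset.mul_sum, ← Equiv.sum_comp (Equiv.mulLeft χ₀)]
        simp
      have h' : ((χ₀ g : ℂ) - 1) * ∑ χ : G →* ℂˣ, (χ g : ℂ) = 0 := by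
        rw [sub_mul, ← h, one_mul, sub_self]
      exact (mul_eq_zero.mp h').resolve_left (sub_ne_zero.mpr (by simpa using hχ₀))
  have hpt : ∀ P : HeightOneSpectrum (𝓞 K), ∑ χ : G →* ℂˣ, (lTerm (lift χ) s (primeIdeal P)).re =
      (Nat.card G : ℝ) * {P | Φ (ClassGroup.mk0 (primeIdeal P)) = 1}.indicator
        (fun P => primeNorm P ^ (-s)) P := by
    intro P
    simp only [lTerm, Complex.mul_re, Complex.ofReal_re, Complex.ofReal_im, mul_zero, sub_zero,
      ← Finset.sum_mul, ← Complex.re_sum, lift, MonoidHom.comp_apply, horth, Set.indicator_apply,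
      Set.mem_ofPred_eq]
    have hiff : QuotientGroup.mk' Φ.ker (ClassGroup.mk0 (primeIdeal P)) = 1 ↔
        Φ (ClassGroup.mk0 (primeIdeal P)) = 1 := (QuotientGroup.eq_one_iff _).trans MonoidHom.mem_ker
    simp only [hiff]
    split_ifs <;> simp [primeNorm, primeIdeal]
  have hsum : ∑ χ : G →* ℂˣ, charPrimeSum (lift χ) s =
      (Nat.card G : ℝ) * primeSum {P | Φ (ClassGroup.mk0 (primeIdeal P)) = 1} s := by
    simp only [charPrimeSum, primeSum]
    rw [← Summable.tsum_finsetSum fun χ _ => summable_charPrime (lift χ) hs1, ← tsum_mul_left]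
    exact tsum_congr hpt
  rw [← hcard, ← hsum, ← Finset.add_sum_erase _ _ (Finset.mem_univ (1 : G →* ℂˣ))]
  have h1 : charPrimeSum (lift 1) s ≤ Real.log (1 / (s - 1)) + C₀ := by
    have hl : lift 1 = 1 := rfl
    simp only [hl, charPrimeSum, lTerm_one_re]
    linarith [(abs_le.mp (hC₀ s hs1 hs2)).2]
  have h2 : ∑ χ ∈ Finset.univ.erase (1 : G →* ℂˣ), charPrimeSum (lift χ) s ≤ ∑ χ, C χ := by
    rw [Finset.sum_subtype (p := fun χ : G →* ℂˣ => χ ≠ 1) (Finset.univ.erase (1 : G →* ℂˣ))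
      (fun χ => by simp) (fun χ => charPrimeSum (lift χ) s)]
    exact Finset.sum_le_sum fun χ _ => hC χ s hs1 hs2
  linarith

end Fermat.Agent.S14
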